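import Fermat.Agent.LT.Op.Full

set_option autoImplicit false
set_option linter.unusedSectionVars false

/-! # The algebra of operators on automorphic functions -/

namespace Fermat.Agent.LT.Op

open MeasureTheory ProbabilityTheory NumberField
open scoped ENNReal NNReal MatrixGroups InnerProductSpace
open FA Sp Fou

section Congr

variable {G Y : Type*} [Group G] [MulAction G Y] [MeasurableSpace Y] [MeasurableConstSMul G Y]
  {μ : Measure Y} [SMulInvariantMeasure G Y μ] [Countable G] {w : Y → ℝ≥0} {b : Base G μ}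
  {k k' : Y → Y → ℂ}

theorem dens_op_congr [SFinite μ] (hk : Dens b k) (hk' : Dens b k') (h : k = k')
    (hw : IsWt G μ w) : hk.cor.op hw = hk'.cor.op hw := by
  subst h; rfl

theorem fk_op_congr [SigmaFinite μ] (hk : IsFK G μ k) (hk' : IsFK G μ k') (h : k = k')
    (hw : IsWt G μ w) : hk.op hw = hk'.op hw := by
  subst h; rfl

end Congr

variable {F : Type*} [Field F] [NumberField F] {D : Type*} [MulAction (GL (Fin 2) F) D]
  [MeasurableSpace D] [DiscreteMeasurableSpace D] [Countable D] [FinPart F D]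
  [IsTotallyComplex F] {w : HF F × D → ℝ≥0}

instance instSigmaFiniteMuY : SigmaFinite (muY F D) := by
  unfold muY
  infer_instance

/-- the operator of a point pair invariant at the place `j` -/
noncomputable def opA (hw : IsWt PGL(2, F) (muY F D) w) (j : InfinitePlace F) (κ : IKer) :
    HA PGL(2, F) (muY F D) →L[ℂ] HA PGL(2, F) (muY F D) := (densA (D := D) j κ).cor.op hw

/-- the operator of a kernel on the finite part -/
noncomputable def opD (hw : IsWt PGL(2, F) (muY F D) w) (κ : DKer F D) :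
    HA PGL(2, F) (muY F D) →L[ℂ] HA PGL(2, F) (muY F D) := (densD κ).cor.op hw

/-- the operator of a product kernel -/
noncomputable def opK (hw : IsWt PGL(2, F) (muY F D) w) (κs : InfinitePlace F → IKer)
    (κf : DKer F D) :
    HA PGL(2, F) (muY F D) →L[ℂ] HA PGL(2, F) (muY F D) := (isFK_pk κs κf).op hw

/-! ### pointwise formulas -/

theorem measurable_afn (f : HA PGL(2, F) (muY F D)) : Measurable (afn f) :=
  (HA.stronglyMeasurable_fn f).measurable

theorem app_A (j : InfinitePlace F) (κ : IKer) {Φ : HF F × D → ℂ} (hΦ : Measurable Φ)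
    (x : HF F × D) : (densA (D := D) j κ).cor.app Φ x =
      ∫ q : H3, ((κ.k (x.1 j) q : ℝ) : ℂ) * Φ (upd x.1 j q, x.2) := by
  have hm : Measurable fun y => kA j κ x y * Φ y := (measurable_kA_right j κ x).mul hΦ
  rw [(densA (D := D) j κ).cor_app, integral_baseA j x hm]
  refine integral_congr_ae (Filter.Eventually.of_forall fun q => ?_)
  show ((κ.k (x.1 j) (upd x.1 j q j) : ℝ) : ℂ) * Φ (upd x.1 j q, x.2) = _
  rw [upd_same]

theorem app_D_of (κ : DKer F D) {Φ : HF F × D → ℂ} (hΦ : Measurable Φ)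
    (x : HF F × D) (s : Finset D) (hs : ∀ d', d' ∉ s → κ.κ x.2 d' = 0) :
    (densD κ).cor.app Φ x = ∑ d' ∈ s, κ.κ x.2 d' * Φ (x.1, d') := by
  have hm : Measurable fun y => kD κ x y * Φ y := (measurable_kD_right κ x).mul hΦ
  rw [(densD κ).cor_app, integral_baseD x hm s]
  · rfl
  · intro d' hd'
    show κ.κ x.2 d' * Φ (x.1, d') = 0
    rw [hs d' hd', zero_mul]

theorem app_D (κ : DKer F D) {Φ : HF F × D → ℂ} (hΦ : Measurable Φ)
    (x : HF F × D) : (densD κ).cor.app Φ x =
      ∑ d' ∈ (κ.finite x.2).toFinset, κ.κ x.2 d' * Φ (x.1, d') := by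
  have hm : Measurable fun y => kD κ x y * Φ y := (measurable_kD_right κ x).mul hΦ
  rw [(densD κ).cor_app, integral_baseD x hm (κ.finite x.2).toFinset]
  · rfl
  · intro d' hd'
    show κ.κ x.2 d' * Φ (x.1, d') = 0
    rw [Set.Finite.mem_toFinset] at hd'
    rw [not_not.mp hd', zero_mul]

theorem app_D' (κ : DKer F D) {Φ : HF F × D → ℂ} (hΦ : Measurable Φ)
    (x : HF F × D) : (densD κ).cor.app Φ x = ∑ᶠ d', κ.κ x.2 d' * Φ (x.1, d') := by
  rw [app_D κ hΦ, finsum_eq_sum_of_support_subset]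
  intro d' hd'
  rw [Set.Finite.coe_toFinset]
  exact fun h => hd' (by
    show κ.κ x.2 d' * Φ (x.1, d') = 0
    rw [h, zero_mul])

theorem upd_upd (p : HF F) (j : InfinitePlace F) (q r : H3) :
    upd (upd p j q) j r = upd p j r := by
  funext w
  by_cases h : w = j
  · subst h
    rw [upd_same, upd_same]
  · rw [upd_ne _ h, upd_ne _ h, upd_ne _ h]

theorem upd_comm (p : HF F) {j j' : InfinitePlace F} (h : j ≠ j') (q r : H3) :
    upd (upd p j q) j' r = upd (upd p j' r) j q := by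
  funext w
  by_cases h1 : w = j
  · subst h1
    rw [upd_ne _ h, upd_same, upd_same]
  · by_cases h2 : w = j'
    · subst h2
      rw [upd_same, upd_ne _ h1, upd_same]
    · rw [upd_ne _ h2, upd_ne _ h1, upd_ne _ h1, upd_ne _ h2]

theorem measurable_upd_right (j : InfinitePlace F) (p : HF F) :
    Measurable fun r : H3 => upd p j r := by
  have h2 := measurable_upd (F := F) j
  have h3 : Measurable fun r : H3 => (p, r) := measurable_prodMk_left
  exact Measurable.comp (g := fun z : HF F × H3 => upd z.1 j z.2)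
    (f := fun r : H3 => (p, r)) h2 h3

theorem integrable_k (κ : IKer) (p : H3) : Integrable fun q : H3 => ((κ.k p q : ℝ) : ℂ) :=
  ((κ.continuous_right p).integrable_of_hasCompactSupport (κ.hasCompactSupport_right p)).ofReal

theorem opA_ae (hw : IsWt PGL(2, F) (muY F D) w) (j : InfinitePlace F) (κ : IKer)
    (f : HA PGL(2, F) (muY F D)) : ∀ᵐ x ∂(muY F D), afn (opA hw j κ f) x =
      ∫ q : H3, ((κ.k (x.1 j) q : ℝ) : ℂ) * afn f (upd x.1 j q, x.2) := by
  filter_upwards [(densA (D := D) j κ).cor.op_ae hw f] with x hx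
  rw [opA, hx, app_A j κ (measurable_afn f)]

theorem opD_ae (hw : IsWt PGL(2, F) (muY F D) w) (κ : DKer F D)
    (f : HA PGL(2, F) (muY F D)) : ∀ᵐ x ∂(muY F D), afn (opD hw κ f) x =
      ∑ᶠ d', κ.κ x.2 d' * afn f (x.1, d') := by
  filter_upwards [(densD κ).cor.op_ae hw f] with x hx
  rw [opD, hx, app_D' κ (measurable_afn f)]

theorem opK_ae (hw : IsWt PGL(2, F) (muY F D) w) (κs : InfinitePlace F → IKer) (κf : DKer F D)
    (f : HA PGL(2, F) (muY F D)) : ∀ᵐ x ∂(muY F D), afn (opK hw κs κf f) x =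
      ∫ y, pk κs κf x y * afn f y ∂(muY F D) := (isFK_pk κs κf).op_ae hw f

theorem kRep_opK (hw : IsWt PGL(2, F) (muY F D) w) (κs : InfinitePlace F → IKer)
    (κf : DKer F D) : KRep (opK hw κs κf) (pk κs κf) := (isFK_pk κs κf).kRep hw

variable [IsFiniteMeasure (wtM (muY F D) w)]

/-! ### adjoints -/

theorem opA_adj (hw : IsWt PGL(2, F) (muY F D) w) (j : InfinitePlace F) (κ : IKer) :
    ContinuousLinearMap.adjoint (opA hw j κ) = opA hw j κ := by
  rw [opA, Dens.cor_adj]
  refine dens_op_congr _ _ ?_ hw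
  funext x y
  show (starRingEnd ℂ) ((κ.k (y.1 j) (x.1 j) : ℝ) : ℂ) = ((κ.k (x.1 j) (y.1 j) : ℝ) : ℂ)
  rw [Complex.conj_ofReal, κ.symm]

theorem opD_adj (hw : IsWt PGL(2, F) (muY F D) w) (κ : DKer F D) :
    ContinuousLinearMap.adjoint (opD hw κ) = opD hw κ.adj := by
  rw [opD, Dens.cor_adj]
  exact dens_op_congr _ _ rfl hw

theorem opK_adj (hw : IsWt PGL(2, F) (muY F D) w) (κs : InfinitePlace F → IKer)
    (κf : DKer F D) : ContinuousLinearMap.adjoint (opK hw κs κf) = opK hw κs κf.adj := by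
  rw [opK, IsFK.op_adj]
  exact fk_op_congr _ _ (pk_adj κs κf) hw

/-! ### products -/

theorem opA_mul (hw : IsWt PGL(2, F) (muY F D) w) (j : InfinitePlace F) (κ κ' : IKer) :
    opA hw j κ * opA hw j κ' = opA hw j (IKer.comp κ κ') := by
  classical
  refine op_mul_op _ _ _ hw fun Φ hΦ => Filter.Eventually.of_forall fun x => ?_
  have hΦ' := hΦ.app (densA (D := D) j κ').cor
  rw [app_A j κ hΦ'.meas, app_A j _ hΦ.meas]
  obtain ⟨C, hC⟩ := hΦ.bdd
  have e : ∀ q : H3, (densA (D := D) j κ').cor.app Φ (upd x.1 j q, x.2) =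
      ∫ r : H3, ((κ'.k q r : ℝ) : ℂ) * Φ (upd x.1 j r, x.2) := by
    intro q
    rw [app_A j κ' hΦ.meas]
    refine integral_congr_ae (Filter.Eventually.of_forall fun r => ?_)
    show ((κ'.k (upd x.1 j q j) r : ℝ) : ℂ) * Φ (upd (upd x.1 j q) j r, x.2) = _
    rw [upd_same, upd_upd]
  simp_rw [e]
  set f : H3 → ℂ := fun r => Φ (upd x.1 j r, x.2) with hf
  have hfm : Measurable f :=
    hΦ.meas.comp ((measurable_upd_right j x.1).prodMk measurable_const)
  have hfl : LocallyIntegrable f := by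
    intro y
    obtain ⟨K, hK, hy⟩ := exists_compact_mem_nhds y
    refine ⟨K, hy, ?_⟩
    exact Measure.integrableOn_of_bounded (M := C) hK.measure_lt_top.ne
      hfm.aestronglyMeasurable (Filter.Eventually.of_forall fun r => hC _)
  have h := IKer.comp_op κ κ' hfl (x.1 j)
  have e1 : ∀ (κ : IKer) (f : H3 → ℂ) (p : H3), κ.op f p =
      ∫ r : H3, ((κ.k p r : ℝ) : ℂ) * f r := by
    intro κ f p
    rw [IKer.op_def]
    refine integral_congr_ae (Filter.Eventually.of_forall fun r => ?_)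
    simp only
    rw [Complex.real_smul]
  rw [e1] at h
  have e2 : κ'.op f = fun p => ∫ r : H3, ((κ'.k p r : ℝ) : ℂ) * f r := by
    funext p; exact e1 κ' f p
  rw [e1, e2] at h
  first
    | exact h
    | exact h.symm

theorem opA_comm (hw : IsWt PGL(2, F) (muY F D) w) (j j' : InfinitePlace F) (κ κ' : IKer) :
    opA hw j κ * opA hw j' κ' = opA hw j' κ' * opA hw j κ := by
  classical
  by_cases hj : j = j'
  · subst hj
    rw [opA_mul, opA_mul]
    refine dens_op_congr _ _ ?_ hw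
    funext x y
    show (((IKer.comp κ κ').k (x.1 j) (y.1 j) : ℝ) : ℂ) = _
    rw [IKer.comp_comm_k]
    rfl
  refine op_comm _ _ hw fun Φ hΦ => Filter.Eventually.of_forall fun x => ?_
  rw [app_A j κ (hΦ.app (densA (D := D) j' κ').cor).meas,
    app_A j' κ' (hΦ.app (densA (D := D) j κ).cor).meas]
  obtain ⟨C, hC⟩ := hΦ.bdd
  have e : ∀ q : H3, ((κ.k (x.1 j) q : ℝ) : ℂ) *
      (densA (D := D) j' κ').cor.app Φ (upd x.1 j q, x.2) =
      ∫ r : H3, ((κ.k (x.1 j) q : ℝ) : ℂ) * (((κ'.k (x.1 j') r : ℝ) : ℂ) *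
        Φ (upd (upd x.1 j q) j' r, x.2)) := by
    intro q
    rw [app_A j' κ' hΦ.meas, ← integral_const_mul]
    refine integral_congr_ae (Filter.Eventually.of_forall fun r => ?_)
    show ((κ.k (x.1 j) q : ℝ) : ℂ) * (((κ'.k (upd x.1 j q j') r : ℝ) : ℂ) *
      Φ (upd (upd x.1 j q) j' r, x.2)) = _
    rw [upd_ne _ (Ne.symm hj)]
  have e' : ∀ r : H3, ((κ'.k (x.1 j') r : ℝ) : ℂ) *
      (densA (D := D) j κ).cor.app Φ (upd x.1 j' r, x.2) =
      ∫ q : H3, ((κ.k (x.1 j) q : ℝ) : ℂ) * (((κ'.k (x.1 j') r : ℝ) : ℂ) *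
        Φ (upd (upd x.1 j q) j' r, x.2)) := by
    intro r
    rw [app_A j κ hΦ.meas, ← integral_const_mul]
    refine integral_congr_ae (Filter.Eventually.of_forall fun q => ?_)
    show ((κ'.k (x.1 j') r : ℝ) : ℂ) * (((κ.k (upd x.1 j' r j) q : ℝ) : ℂ) *
      Φ (upd (upd x.1 j' r) j q, x.2)) = ((κ.k (x.1 j) q : ℝ) : ℂ) *
        (((κ'.k (x.1 j') r : ℝ) : ℂ) * Φ (upd (upd x.1 j q) j' r, x.2))
    rw [upd_ne _ hj, upd_comm x.1 hj q r]
    ring
  simp_rw [e, e']
  have h1 : Integrable (fun z : H3 × H3 =>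
      ((κ.k (x.1 j) z.1 : ℝ) : ℂ) * ((κ'.k (x.1 j') z.2 : ℝ) : ℂ)) (volume.prod volume) :=
    (integrable_k κ (x.1 j)).mul_prod (integrable_k κ' (x.1 j'))
  have hm : Measurable fun z : H3 × H3 => Φ (upd (upd x.1 j z.1) j' z.2, x.2) := by
    have h2 : Measurable fun z : H3 × H3 => (upd x.1 j z.1, z.2) :=
      ((measurable_upd_right j x.1).comp measurable_fst).prodMk measurable_snd
    have h3 : Measurable fun z : H3 × H3 => upd (upd x.1 j z.1) j' z.2 :=
      Measurable.comp (g := fun z : HF F × H3 => upd z.1 j' z.2)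
        (f := fun z : H3 × H3 => (upd x.1 j z.1, z.2)) (measurable_upd j') h2
    exact hΦ.meas.comp (h3.prodMk measurable_const)
  have h4 : Integrable (fun z : H3 × H3 => ((κ.k (x.1 j) z.1 : ℝ) : ℂ) *
      (((κ'.k (x.1 j') z.2 : ℝ) : ℂ) * Φ (upd (upd x.1 j z.1) j' z.2, x.2)))
      (volume.prod volume) := by
    refine (h1.mul_bdd (c := C) hm.aestronglyMeasurable
      (Filter.Eventually.of_forall fun z => hC _)).congr
      (Filter.Eventually.of_forall fun z => ?_)
    simp only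
    ring
  exact integral_integral_swap h4

theorem opD_mul (hw : IsWt PGL(2, F) (muY F D) w) (κ κ' : DKer F D) :
    opD hw κ * opD hw κ' = opD hw (κ.comp κ') := by
  classical
  refine op_mul_op _ _ _ hw fun Φ hΦ => Filter.Eventually.of_forall fun x => ?_
  set S := (κ.finite x.2).toFinset with hS
  set S' := S.biUnion fun d' => (κ'.finite d').toFinset with hS'
  have hSm : ∀ d', d' ∉ S → κ.κ x.2 d' = 0 := fun d' hd' => by
    rw [hS, Set.Finite.mem_toFinset] at hd'
    exact not_not.mp hd'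
  have hS'm : ∀ d' ∈ S, ∀ d'', d'' ∉ S' → κ'.κ d' d'' = 0 := fun d' hd' d'' hd'' => by
    by_contra h
    exact hd'' (Finset.mem_biUnion.mpr ⟨d', hd', (Set.Finite.mem_toFinset _).mpr h⟩)
  have hc : ∀ d'', (κ.comp κ').κ x.2 d'' = ∑ d' ∈ S, κ.κ x.2 d' * κ'.κ d' d'' := fun d'' =>
    DKer.comp_κ_sum κ κ' x.2 d''
  rw [app_D_of κ (hΦ.app (densD κ').cor).meas x S hSm,
    app_D_of (κ.comp κ') hΦ.meas x S' (fun d'' hd'' => by
      rw [hc]
      exact Finset.sum_eq_zero fun d' hd' => by rw [hS'm d' hd' d'' hd'', mul_zero])]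
  simp_rw [hc, Finset.sum_mul]
  rw [Finset.sum_comm]
  refine Finset.sum_congr rfl fun d' hd' => ?_
  rw [app_D_of κ' hΦ.meas (x.1, d') S' (hS'm d' hd'), Finset.mul_sum]
  refine Finset.sum_congr rfl fun d'' _ => ?_
  ring

theorem opD_one (hw : IsWt PGL(2, F) (muY F D) w) : opD hw (DKer.one F D) = 1 := by
  classical
  refine ext_bmk hw fun Φ hΦ => ?_
  rw [opD, op_bmk _ hw hΦ, one_apply_eq_self]
  refine bmk_eq hw _ _ (Filter.Eventually.of_forall fun x => ?_)
  rw [app_D_of (DKer.one F D) hΦ.meas x {x.2} fun d' hd' => by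
    rw [Finset.mem_singleton] at hd'
    exact if_neg (Ne.symm hd')]
  rw [Finset.sum_singleton]
  have h : (DKer.one F D).κ x.2 x.2 = 1 := if_pos rfl
  rw [h, one_mul]

theorem opD_add (hw : IsWt PGL(2, F) (muY F D) w) (κ κ' : DKer F D) :
    opD hw (κ.add κ') = opD hw κ + opD hw κ' :=
  (densD κ).op_add (densD κ') hw

theorem opD_cmul (hw : IsWt PGL(2, F) (muY F D) w) (c : ℂ) (κ : DKer F D) :
    opD hw (κ.cmul c) = c • opD hw κ :=
  (densD κ).op_cmul c hw

theorem opA_opD_comm (hw : IsWt PGL(2, F) (muY F D) w) (j : InfinitePlace F) (κ : IKer)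
    (κ' : DKer F D) : opA hw j κ * opD hw κ' = opD hw κ' * opA hw j κ := by
  classical
  refine op_comm _ _ hw fun Φ hΦ => Filter.Eventually.of_forall fun x => ?_
  obtain ⟨C, hC⟩ := hΦ.bdd
  rw [app_A j κ (hΦ.app (densD κ').cor).meas, app_D κ' (hΦ.app (densA (D := D) j κ).cor).meas]
  have e : ∀ q : H3, ((κ.k (x.1 j) q : ℝ) : ℂ) * (densD κ').cor.app Φ (upd x.1 j q, x.2) =
      ∑ d' ∈ (κ'.finite x.2).toFinset,
        κ'.κ x.2 d' * (((κ.k (x.1 j) q : ℝ) : ℂ) * Φ (upd x.1 j q, d')) := by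
    intro q
    rw [app_D κ' hΦ.meas, Finset.mul_sum]
    refine Finset.sum_congr rfl fun d' _ => ?_
    simp only
    ring
  simp_rw [e]
  rw [integral_finsetSum]
  · refine Finset.sum_congr rfl fun d' _ => ?_
    rw [integral_const_mul, app_A j κ hΦ.meas]
  · intro d' _
    refine Integrable.const_mul ?_ _
    refine (integrable_k κ (x.1 j)).mul_bdd (c := C) ?_
      (Filter.Eventually.of_forall fun q => hC _)
    exact (hΦ.meas.comp ((measurable_upd_right j x.1).prodMk
      measurable_const)).aestronglyMeasurable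

/-! ### products with product kernels -/

theorem opA_mul_opK [DecidableEq (InfinitePlace F)] (hw : IsWt PGL(2, F) (muY F D) w)
    (j : InfinitePlace F) (κ : IKer) (κs : InfinitePlace F → IKer) (κf : DKer F D) :
    opA hw j κ * opK hw κs κf =
      opK hw (Function.update κs j (IKer.comp κ (κs j))) κf := by
  rw [opA, opK, op_mul_full]
  exact fk_op_congr _ _ (mulK_kA j κ κs κf) hw

theorem opD_mul_opK (hw : IsWt PGL(2, F) (muY F D) w) (κ : DKer F D)
    (κs : InfinitePlace F → IKer) (κf : DKer F D) :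
    opD hw κ * opK hw κs κf = opK hw κs (κ.comp κf) := by
  rw [opD, opK, op_mul_full]
  exact fk_op_congr _ _ (mulK_kD κ κs κf) hw

theorem opK_mul (hw : IsWt PGL(2, F) (muY F D) w) (κs κs' : InfinitePlace F → IKer)
    (κf κf' : DKer F D) : opK hw κs κf * opK hw κs' κf' =
      opK hw (fun j => IKer.comp (κs j) (κs' j)) (κf.comp κf') := by
  rw [opK, opK, IsFK.op_mul]
  exact fk_op_congr _ _ (cvK_pk κs κs' κf κf') hw

theorem opK_congr (hw : IsWt PGL(2, F) (muY F D) w) {κs κs' : InfinitePlace F → IKer}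
    {κf κf' : DKer F D} (h : ∀ x y, pk κs κf x y = pk κs' κf' x y) :
    opK hw κs κf = opK hw κs' κf' :=
  fk_op_congr _ _ (by funext x y; exact h x y) hw

theorem adj_adj (κ : DKer F D) : κ.adj.adj = κ := by
  refine DKer.ext' fun d d' => ?_
  show (starRingEnd ℂ) ((starRingEnd ℂ) (κ.κ d d')) = κ.κ d d'
  exact Complex.conj_conj _

theorem adj_comp (κ κ' : DKer F D) : (κ.comp κ').adj = κ'.adj.comp κ.adj := by
  refine DKer.ext' fun d d' => ?_
  show (starRingEnd ℂ) (∑ᶠ e, κ.κ d' e * κ'.κ e d) =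
    ∑ᶠ e, (starRingEnd ℂ) (κ'.κ e d) * (starRingEnd ℂ) (κ.κ d' e)
  have hf : (Function.support fun e => κ.κ d' e * κ'.κ e d).Finite :=
    (κ.finite d').subset fun e he h => he (by
      show κ.κ d' e * κ'.κ e d = 0
      rw [h, zero_mul])
  have h := AddMonoidHom.map_finsum ((starRingEnd ℂ : ℂ →+* ℂ) : ℂ →+ ℂ) hf
  refine h.trans (finsum_congr fun e => ?_)
  show (starRingEnd ℂ) (κ.κ d' e * κ'.κ e d) = _
  rw [map_mul, mul_comm]

theorem opK_mul_opA [DecidableEq (InfinitePlace F)] (hw : IsWt PGL(2, F) (muY F D) w)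
    (κs : InfinitePlace F → IKer) (κf : DKer F D) (j : InfinitePlace F) (κ : IKer) :
    opK hw κs κf * opA hw j κ =
      opK hw (Function.update κs j (IKer.comp κ (κs j))) κf := by
  have h : ContinuousLinearMap.adjoint (opK hw κs κf * opA hw j κ) =
      ContinuousLinearMap.adjoint
        (opK hw (Function.update κs j (IKer.comp κ (κs j))) κf) := by
    have e : ContinuousLinearMap.adjoint (opK hw κs κf * opA hw j κ) =
        ContinuousLinearMap.adjoint (opA hw j κ) * ContinuousLinearMap.adjoint (opK hw κs κf) :=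
      ContinuousLinearMap.adjoint_comp _ _
    rw [e, opA_adj, opK_adj, opK_adj, opA_mul_opK]
  exact (ContinuousLinearMap.adjoint (𝕜 := ℂ)).injective h

theorem opK_mul_opD (hw : IsWt PGL(2, F) (muY F D) w) (κs : InfinitePlace F → IKer)
    (κf κ : DKer F D) : opK hw κs κf * opD hw κ = opK hw κs (κf.comp κ) := by
  have h : ContinuousLinearMap.adjoint (opK hw κs κf * opD hw κ) =
      ContinuousLinearMap.adjoint (opK hw κs (κf.comp κ)) := by
    have e : ContinuousLinearMap.adjoint (opK hw κs κf * opD hw κ) =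
        ContinuousLinearMap.adjoint (opD hw κ) * ContinuousLinearMap.adjoint (opK hw κs κf) :=
      ContinuousLinearMap.adjoint_comp _ _
    rw [e, opD_adj, opK_adj, opK_adj, opD_mul_opK, adj_comp]
  exact (ContinuousLinearMap.adjoint (𝕜 := ℂ)).injective h

/-! ### commutation -/

theorem opA_opK_comm (hw : IsWt PGL(2, F) (muY F D) w) (j : InfinitePlace F) (κ : IKer)
    (κs : InfinitePlace F → IKer) (κf : DKer F D) :
    opA hw j κ * opK hw κs κf = opK hw κs κf * opA hw j κ := by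
  classical
  rw [opA_mul_opK, opK_mul_opA]

theorem opD_opK_comm (hw : IsWt PGL(2, F) (muY F D) w) (κ : DKer F D)
    (κs : InfinitePlace F → IKer) (κf : DKer F D) (h : κ.comp κf = κf.comp κ) :
    opD hw κ * opK hw κs κf = opK hw κs κf * opD hw κ := by
  rw [opD_mul_opK, opK_mul_opD, h]

theorem opD_comm (hw : IsWt PGL(2, F) (muY F D) w) (κ κ' : DKer F D)
    (h : κ.comp κ' = κ'.comp κ) : opD hw κ * opD hw κ' = opD hw κ' * opD hw κ := by
  rw [opD_mul, opD_mul, h]

theorem opK_comm (hw : IsWt PGL(2, F) (muY F D) w) (κs κs' : InfinitePlace F → IKer)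
    (κf κf' : DKer F D) (h : κf.comp κf' = κf'.comp κf) :
    opK hw κs κf * opK hw κs' κf' = opK hw κs' κf' * opK hw κs κf := by
  rw [opK_mul, opK_mul, h]
  refine opK_congr hw fun x y => ?_
  rw [pk_apply, pk_apply]
  congr 2
  exact Finset.prod_congr rfl fun j _ => IKer.comp_comm_k _ _ _ _

/-! ### linearity in the finite part -/

theorem opK_add (hw : IsWt PGL(2, F) (muY F D) w) (κs : InfinitePlace F → IKer)
    (κf κf' : DKer F D) : opK hw κs (κf.add κf') = opK hw κs κf + opK hw κs κf' := by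
  symm
  have hA := (kRep_opK hw κs κf).add hw (kRep_opK hw κs κf')
  refine (isFK_pk κs (κf.add κf')).op_eq hw fun f => ?_
  filter_upwards [hA.rep f] with x hx
  rw [hx]
  refine integral_congr_ae (Filter.Eventually.of_forall fun y => ?_)
  show (pk κs κf x y + pk κs κf' x y) * afn f y =
    ((archK κs x.1 y.1 : ℂ) * (κf.κ x.2 y.2 + κf'.κ x.2 y.2)) * afn f y
  rw [pk_apply, pk_apply]
  ring

theorem opK_cmul (hw : IsWt PGL(2, F) (muY F D) w) (κs : InfinitePlace F → IKer) (c : ℂ)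
    (κf : DKer F D) : opK hw κs (κf.cmul c) = c • opK hw κs κf := by
  symm
  have hA := (kRep_opK hw κs κf).smul hw c
  refine (isFK_pk κs (κf.cmul c)).op_eq hw fun f => ?_
  filter_upwards [hA.rep f] with x hx
  rw [hx]
  refine integral_congr_ae (Filter.Eventually.of_forall fun y => ?_)
  show (c * pk κs κf x y) * afn f y =
    ((archK κs x.1 y.1 : ℂ) * (c * κf.κ x.2 y.2)) * afn f y
  rw [pk_apply]
  ring

end Fermat.Agent.LT.Op
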