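import Fermat.Agent.LT.Op.Alg
import Fermat.Agent.LT.FA.ThOp
import Fermat.Agent.LT.T3.Arch

set_option autoImplicit false
set_option linter.unusedSectionVars false

/-! # The operator of an automorphism of the field -/

namespace Fermat.Agent.LT.Op

open MeasureTheory ProbabilityTheory NumberField
open scoped ENNReal NNReal MatrixGroups
open FA Sp Fou

variable {F : Type*} [Field F] [NumberField F] {D : Type*} [MulAction (GL (Fin 2) F) D]

/-- the automorphism of `PGL₂(F)` -/
noncomputable def gP (θ : F ≃+* F) : PGL(2, F) ≃* PGL(2, F) where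
  toFun := Matrix.ProjGenLinGroup.map (θ : F →+* F)
  invFun := Matrix.ProjGenLinGroup.map (θ.symm : F →+* F)
  left_inv g := by
    induction g using Matrix.ProjGenLinGroup.induction_on with
    | mk g =>
      show Matrix.ProjGenLinGroup.mk (Matrix.GeneralLinearGroup.map (θ.symm : F →+* F)
        (Matrix.GeneralLinearGroup.map (θ : F →+* F) g)) = _
      congr 1
      ext i j; simp
  right_inv g := by
    induction g using Matrix.ProjGenLinGroup.induction_on with
    | mk g =>
      show Matrix.ProjGenLinGroup.mk (Matrix.GeneralLinearGroup.map (θ : F →+* F)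
        (Matrix.GeneralLinearGroup.map (θ.symm : F →+* F) g)) = _
      congr 1
      ext i j; simp
  map_mul' := map_mul _

theorem gP_mk (θ : F ≃+* F) (g : GL (Fin 2) F) : gP θ (Matrix.ProjGenLinGroup.mk g) =
    Matrix.ProjGenLinGroup.mk (Matrix.GeneralLinearGroup.map (θ : F →+* F) g) := rfl

theorem gP_apply (θ : F ≃+* F) (g : PGL(2, F)) :
    gP θ g = Matrix.ProjGenLinGroup.map (θ : F →+* F) g := rfl

variable [MeasurableSpace D] [DiscreteMeasurableSpace D] [Countable D] [FinPart F D]
  [IsTotallyComplex F] {w : HF F × D → ℝ≥0}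

/-- **The twist** -/
noncomputable def twD (T : Twist F D) : TwD PGL(2, F) (muY F D) where
  θ :=
    { toFun := T.act
      invFun := T.symm.act
      left_inv := T.act_symm_act
      right_inv := T.act_act_symm
      measurable_toFun := T.measurePreserving_act.measurable
      measurable_invFun := T.symm.measurePreserving_act.measurable }
  e := gP T.θ
  mp := T.measurePreserving_act
  smul γ y := by
    induction γ using Matrix.ProjGenLinGroup.induction_on with
    | mk g => exact T.act_smul g y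

theorem twD_θ (T : Twist F D) (y : HF F × D) : (twD T).θ y = T.act y := rfl

theorem twD_θ_symm (T : Twist F D) (y : HF F × D) : (twD T).θ.symm y = T.symm.act y := rfl

theorem twD_e (T : Twist F D) (g : PGL(2, F)) : (twD T).e g = gP T.θ g := rfl

/-- the operator of the twist -/
noncomputable def opT (hw : IsWt PGL(2, F) (muY F D) w) (T : Twist F D) :
    HA PGL(2, F) (muY F D) →L[ℂ] HA PGL(2, F) (muY F D) := (twD T).op hw

theorem opT_ae (hw : IsWt PGL(2, F) (muY F D) w) (T : Twist F D) (f : HA PGL(2, F) (muY F D)) :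
    ∀ᵐ y ∂(muY F D), afn (opT hw T f) y = afn f (T.symm.act y) := (twD T).op_ae hw f

theorem refl_op (hw : IsWt PGL(2, F) (muY F D) w) :
    (TwD.refl PGL(2, F) (muY F D)).op hw = 1 := by
  symm
  rw [(TwD.refl PGL(2, F) (muY F D)).op_eq_iff hw]
  exact fun f => Filter.Eventually.of_forall fun y => rfl

/-- the conjugate kernel -/
def tw (T : Twist F D) (κ : DKer F D) : DKer F D where
  κ d d' := κ.κ (T.dm.symm d) (T.dm.symm d')
  smul g d d' := by
    have h : ∀ d : D, T.dm.symm (g • d) = T.symm.gm g • T.dm.symm d := fun d =>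
      T.symm.dm_smul' g d
    rw [h, h, κ.smul]
  finite d := by
    refine ((κ.finite (T.dm.symm d)).image T.dm).subset fun d' hd' => ?_
    exact ⟨T.dm.symm d', hd', T.dm.apply_symm_apply d'⟩

theorem tw_κ (T : Twist F D) (κ : DKer F D) (d d' : D) :
    (tw T κ).κ d d' = κ.κ (T.dm.symm d) (T.dm.symm d') := rfl

variable [IsFiniteMeasure (wtM (muY F D) w)]

/-- the twisted bounded function -/
theorem isBF_act {Φ : HF F × D → ℂ} (hΦ : IsBF PGL(2, F) Φ) (T : Twist F D) :
    IsBF PGL(2, F) fun y => Φ (T.symm.act y) where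
  meas := hΦ.meas.comp T.symm.measurePreserving_act.measurable
  inv γ y := by
    induction γ using Matrix.ProjGenLinGroup.induction_on with
    | mk g =>
      have h := T.symm.act_smul g y
      show Φ (T.symm.act (g • y)) = _
      rw [h]
      exact hΦ.inv (Matrix.ProjGenLinGroup.mk (T.symm.gm g)) _
  bdd := by
    obtain ⟨C, hC⟩ := hΦ.bdd
    exact ⟨C, fun y => hC _⟩

theorem opT_bmk (hw : IsWt PGL(2, F) (muY F D) w) (T : Twist F D) {Φ : HF F × D → ℂ}
    (hΦ : IsBF PGL(2, F) Φ) : opT hw T (bmk hw hΦ) = bmk hw (isBF_act hΦ T) := by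
  apply eq_bmk
  have h1 : ∀ᵐ y ∂(muY F D), afn (bmk hw hΦ) (T.symm.act y) = Φ (T.symm.act y) :=
    T.symm.measurePreserving_act.quasiMeasurePreserving.ae (afn_bmk hw hΦ)
  filter_upwards [opT_ae hw T (bmk hw hΦ), h1] with y h2 h3
  rw [h2, h3]

/-- conjugation of a correspondence by a twist -/
theorem opT_mul (hw : IsWt PGL(2, F) (muY F D) w) (T : Twist F D)
    (A B : Cor PGL(2, F) (muY F D))
    (h : ∀ Φ : HF F × D → ℂ, IsBF PGL(2, F) Φ → ∀ y,
      A.app Φ (T.symm.act y) = B.app (fun z => Φ (T.symm.act z)) y) :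
    opT hw T * A.op hw = B.op hw * opT hw T := by
  refine ext_bmk hw fun Φ hΦ => ?_
  rw [mul_apply_eq_comp, mul_apply_eq_comp, op_bmk A hw hΦ, opT_bmk hw T (hΦ.app A),
    opT_bmk hw T hΦ, op_bmk B hw (isBF_act hΦ T)]
  exact bmk_eq hw _ _ (Filter.Eventually.of_forall fun y => h Φ hΦ y)

/-- **Hecke operators** -/
theorem opT_opD (hw : IsWt PGL(2, F) (muY F D) w) (T : Twist F D) (κ : DKer F D) :
    opT hw T * opD hw κ = opD hw (tw T κ) * opT hw T := by
  refine opT_mul hw T _ _ fun Φ hΦ y => ?_
  rw [app_D' κ hΦ.meas, app_D' (tw T κ) (isBF_act hΦ T).meas]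
  rw [← finsum_comp_equiv T.dm.symm]
  rfl

/-- change of variable at one place -/
theorem exists_change (θ : F ≃+* F) (j : InfinitePlace F) :
    ∃ u : H3 ≃ᵐ H3, MeasurePreserving u volume volume ∧
      (∀ (x : HF F) (κ : IKer) (p : H3), κ.k (thetaHF θ x j) (u p) = κ.k (x (permPl θ j)) p) ∧
      ∀ (x : HF F) (p : H3), upd (thetaHF θ x) j (u p) = thetaHF θ (upd x (permPl θ j) p) := by
  have hj : permPl θ j = InfinitePlace.mk (j.embedding.comp (θ : F →+* F)) := permPl_apply θ j
  have hne : ∀ (x : HF F) (p : H3) (w : InfinitePlace F), w ≠ j →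
      thetaHF θ (upd x (permPl θ j) p) w = thetaHF θ x w := by
    intro x p w hw
    have h1 : InfinitePlace.mk (w.embedding.comp (θ : F →+* F)) ≠ permPl θ j := by
      rw [← permPl_apply]
      exact fun h => hw ((permPl θ).injective h)
    rw [thetaHF_apply, thetaHF_apply, pt, pt, upd_ne x h1]
  by_cases h : j.embedding.comp (θ : F →+* F) =
      (InfinitePlace.mk (j.embedding.comp (θ : F →+* F))).embedding
  · refine ⟨MeasurableEquiv.refl H3, MeasurePreserving.id _, fun x κ p => ?_, fun x p => ?_⟩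
    · rw [thetaHF_apply, pt_of_eq x h, ← hj]
      rfl
    · funext w
      by_cases hw : w = j
      · subst hw
        rw [upd_same, thetaHF_apply, pt_of_eq _ h, ← hj, upd_same]
        rfl
      · rw [upd_ne _ hw, hne x p w hw]
  · refine ⟨H3.cjHomeo.toMeasurableEquiv, H3.measurePreserving_cj, fun x κ p => ?_,
      fun x p => ?_⟩
    · rw [thetaHF_apply, pt_of_ne x h, ← hj]
      exact κ.k_cj _ _
    · funext w
      by_cases hw : w = j
      · subst hw
        rw [upd_same, thetaHF_apply, pt_of_ne _ h, ← hj, upd_same]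
        rfl
      · rw [upd_ne _ hw, hne x p w hw]

/-- **Archimedean operators** -/
theorem opT_opA (hw : IsWt PGL(2, F) (muY F D) w) (T : Twist F D) (j : InfinitePlace F)
    (κ : IKer) :
    opT hw T * opA hw j κ = opA hw (permPl T.θ.symm j) κ * opT hw T := by
  refine opT_mul hw T _ _ fun Φ hΦ y => ?_
  rw [app_A j κ hΦ.meas, app_A _ κ (isBF_act hΦ T).meas]
  obtain ⟨u, hu1, hu2, hu3⟩ := exists_change T.θ.symm j
  rw [← hu1.integral_comp']
  refine integral_congr_ae (Filter.Eventually.of_forall fun p => ?_)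
  show ((κ.k (thetaHF T.θ.symm y.1 j) (u p) : ℝ) : ℂ) *
      Φ (upd (thetaHF T.θ.symm y.1) j (u p), T.dm.symm y.2) =
    ((κ.k (y.1 (permPl T.θ.symm j)) p : ℝ) : ℂ) *
      Φ (thetaHF T.θ.symm (upd y.1 (permPl T.θ.symm j) p), T.dm.symm y.2)
  rw [hu2, hu3]

theorem archK_thetaHF (κs : InfinitePlace F → IKer) (θ : F ≃+* F) (x x' : HF F) :
    archK κs (thetaHF θ x) (thetaHF θ x') = archK (fun j => κs ((permPl θ).symm j)) x x' := by
  rw [archK, archK]
  rw [← (permPl θ).prod_comp (fun j => (κs ((permPl θ).symm j)).k (x j) (x' j))]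
  refine Finset.prod_congr rfl fun j _ => ?_
  rw [Equiv.symm_apply_apply, thetaHF_apply, thetaHF_apply, T3.k_pt, permPl_apply]

theorem pk_act (T : Twist F D) (κs : InfinitePlace F → IKer) (κf : DKer F D) (x y : HF F × D) :
    pk κs κf (T.symm.act x) (T.symm.act y) =
      pk (fun j => κs ((permPl T.θ.symm).symm j)) (tw T κf) x y := by
  rw [pk_apply, pk_apply, ← archK_thetaHF κs T.θ.symm x.1 y.1]
  rfl

theorem permPl_symm_symm (θ : F ≃+* F) (j : InfinitePlace F) :
    (permPl θ.symm).symm j = permPl θ j := rfl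

/-- **Product kernels** -/
theorem opT_opK (hw : IsWt PGL(2, F) (muY F D) w) (T : Twist F D)
    (κs : InfinitePlace F → IKer) (κf : DKer F D) :
    opT hw T * opK hw κs κf = opK hw (fun j => κs (permPl T.θ j)) (tw T κf) * opT hw T := by
  refine opT_mul hw T _ _ fun Φ hΦ y => ?_
  rw [(isFK_pk κs κf).app_eq, (isFK_pk (fun j => κs (permPl T.θ j)) (tw T κf)).app_eq]
  rw [← T.symm.measurePreserving_act.integral_comp (twD T).θ.symm.measurableEmbedding]
  refine integral_congr_ae (Filter.Eventually.of_forall fun z => ?_)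
  simp only
  rw [pk_act]
  rfl

end Fermat.Agent.LT.Op
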