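import Fermat.Agent.LT.Op.Push
import Fermat.Agent.LT.Sp.Cover
import Fermat.Agent.LT.H3.Ker
import Fermat.Agent.LT.Fou.Form

set_option autoImplicit false
set_option linter.unusedSectionVars false

/-! # The archimedean operators at one place -/

namespace Fermat.Agent.LT.Op

open MeasureTheory ProbabilityTheory NumberField
open scoped ENNReal NNReal MatrixGroups
open FA Sp Fou

variable {F : Type*} [Field F] [NumberField F] {D : Type*} [MeasurableSpace D]
  [DiscreteMeasurableSpace D] [Countable D]

theorem upd_eq [DecidableEq (InfinitePlace F)] (p : HF F) (j : InfinitePlace F) (q : H3) :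
    upd p j q = (Function.update (fun w => p w) j q : InfinitePlace F → H3) := by
  funext w
  by_cases h : w = j
  · subst h
    rw [upd_same, Function.update_self]
  · rw [upd_ne p h, Function.update_of_ne h]

theorem measurable_upd (j : InfinitePlace F) : Measurable fun z : HF F × H3 => upd z.1 j z.2 :=
  (continuous_upd j).measurable

theorem lintegral_upd_symm (j : InfinitePlace F) {H : HF F × HF F → ℝ≥0∞} (hH : Measurable H) :
    ∫⁻ p : HF F, ∫⁻ q : H3, H (p, upd p j q) = ∫⁻ p : HF F, ∫⁻ q : H3, H (upd p j q, p) := by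
  classical
  have h := lintegral_update_symm (X := fun _ : InfinitePlace F => H3) j (H := H) hH
  simp_rw [upd_eq]
  exact h

/-- the integration variable at the place `j` -/
noncomputable def psiA (j : InfinitePlace F) (z : (HF F × D) × H3) : HF F × D := (upd z.1.1 j z.2, z.1.2)

theorem measurable_psiA (j : InfinitePlace F) : Measurable (psiA (D := D) j) := by
  have h1 : Measurable fun z : (HF F × D) × H3 => (z.1.1, z.2) :=
    (measurable_fst.comp measurable_fst).prodMk measurable_snd
  exact ((measurable_upd j).comp h1).prodMk (measurable_snd.comp measurable_fst)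

theorem lintegral_psiA_symm (j : InfinitePlace F) (h : (HF F × D) × (HF F × D) → ℝ≥0∞)
    (hh : Measurable h) :
    ∫⁻ x, ∫⁻ q, h (x, psiA j (x, q)) ∂volume ∂(muY F D) =
      ∫⁻ y, ∫⁻ q, h (psiA j (y, q), y) ∂volume ∂(muY F D) := by
  have m1 : Measurable fun x : HF F × D => ∫⁻ q, h (x, psiA j (x, q)) :=
    (hh.comp (measurable_fst.prodMk (measurable_psiA j))).lintegral_prod_right'
  have m2 : Measurable fun x : HF F × D => ∫⁻ q, h (psiA j (x, q), x) :=
    (hh.comp ((measurable_psiA j).prodMk measurable_fst)).lintegral_prod_right'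
  rw [muY, lintegral_prod_symm _ m1.aemeasurable, lintegral_prod_symm _ m2.aemeasurable]
  refine lintegral_congr fun d => ?_
  have hm : Measurable fun z : HF F × HF F => h ((z.1, d), (z.2, d)) :=
    hh.comp (((measurable_fst.prodMk measurable_const)).prodMk
      (measurable_snd.prodMk measurable_const))
  exact lintegral_upd_symm j hm

variable [MulAction (GL (Fin 2) F) D] [FinPart F D]

theorem upd_smul (g : GL (Fin 2) F) (p : HF F) (j : InfinitePlace F) (q : H3) :
    upd (g • p) j (embGL j g • q) = g • upd p j q := by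
  funext w
  by_cases h : w = j
  · subst h
    rw [upd_same, smul_HF_apply, upd_same]
  · rw [upd_ne _ h, smul_HF_apply, smul_HF_apply, upd_ne _ h]

/-- the action on the coordinate at `j` (through a representative) -/
noncomputable def tauA (j : InfinitePlace F) (γ : PGL(2, F)) (q : H3) : H3 :=
  embGL j (Matrix.ProjGenLinGroup.mk_surjective γ).choose • q

theorem psiA_smul (j : InfinitePlace F) (γ : PGL(2, F)) (x : HF F × D) (q : H3) :
    psiA j (γ • x, tauA j γ q) = γ • psiA j (x, q) := by
  have h := (Matrix.ProjGenLinGroup.mk_surjective γ).choose_spec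
  set g := (Matrix.ProjGenLinGroup.mk_surjective γ).choose with hg
  have e : tauA j γ q = embGL j g • q := rfl
  rw [e]
  clear_value g
  subst h
  refine Prod.ext ?_ rfl
  exact upd_smul g x.1 j q

/-- the base kernel at the place `j` -/
noncomputable def baseA (F : Type*) [Field F] [NumberField F] (D : Type*) [MeasurableSpace D]
    [DiscreteMeasurableSpace D] [Countable D] [MulAction (GL (Fin 2) F) D] [FinPart F D]
    (j : InfinitePlace F) : Base PGL(2, F) (muY F D) :=
  mkBase (volume : Measure H3) (psiA j) (measurable_psiA j) (lintegral_psiA_symm j) (tauA j)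
    (fun _ => H3.measurePreserving_smul_H3 _) (psiA_smul j)

theorem baseA_B (j : InfinitePlace F) (x : HF F × D) :
    (baseA F D j).B x = (volume : Measure H3).map (fun q => (upd x.1 j q, x.2)) :=
  pushK_apply (measurable_psiA j) x

theorem lintegral_baseA (j : InfinitePlace F) (x : HF F × D) {f : HF F × D → ℝ≥0∞}
    (hf : Measurable f) :
    ∫⁻ y, f y ∂((baseA F D j).B x) = ∫⁻ q : H3, f (upd x.1 j q, x.2) :=
  lintegral_pushK (measurable_psiA j) x hf

theorem integral_baseA (j : InfinitePlace F) (x : HF F × D) {f : HF F × D → ℂ}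
    (hf : Measurable f) :
    ∫ y, f y ∂((baseA F D j).B x) = ∫ q : H3, f (upd x.1 j q, x.2) :=
  integral_pushK (measurable_psiA j) x hf

/-- the density of the operator of a point pair invariant at the place `j` -/
noncomputable def kA (j : InfinitePlace F) (κ : IKer) (x y : HF F × D) : ℂ := κ.k (x.1 j) (y.1 j)

theorem measurable_apply_HF (j : InfinitePlace F) : Measurable fun p : HF F => p j :=
  measurable_pi_apply (X := fun _ : InfinitePlace F => H3) j

theorem measurable_kA (j : InfinitePlace F) (κ : IKer) :
    Measurable (Function.uncurry (kA (D := D) j κ)) := by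
  have h1 : Measurable fun z : (HF F × D) × (HF F × D) => z.1.1 j :=
    (measurable_apply_HF j).comp (measurable_fst.comp measurable_fst)
  have h2 : Measurable fun z : (HF F × D) × (HF F × D) => z.2.1 j :=
    (measurable_apply_HF j).comp (measurable_fst.comp measurable_snd)
  exact Complex.measurable_ofReal.comp (κ.cont.measurable.comp (h1.prodMk h2))

/-- the mass of a point pair invariant -/
noncomputable def mass (κ : IKer) : ℝ≥0∞ := ∫⁻ q : H3, ‖κ.k H3.j q‖ₑ

theorem mass_lt_top (κ : IKer) : mass κ < ∞ := by
  have h : Integrable fun q => κ.k H3.j q :=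
    (κ.continuous_right H3.j).integrable_of_hasCompactSupport (κ.hasCompactSupport_right H3.j)
  exact h.2

theorem lintegral_k (κ : IKer) (p : H3) : ∫⁻ q : H3, ‖κ.k p q‖ₑ = mass κ := by
  have h := (H3.measurePreserving_smul_H3 (H3.up p)).lintegral_comp
    (f := fun q => ‖κ.k p q‖ₑ) (κ.continuous_right p).measurable.enorm
  rw [← h, mass]
  refine lintegral_congr fun q => ?_
  have e : p = H3.up p • H3.j := (H3.up_smul_j p).symm
  conv_lhs => rw [e]
  rw [H3.up_smul_j p, ← κ.inv (H3.up p) H3.j q, H3.up_smul_j]

theorem densA (j : InfinitePlace F) (κ : IKer) : Dens (baseA F D j) (kA j κ) where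
  meas := measurable_kA j κ
  inv γ x y := by
    induction γ using Matrix.ProjGenLinGroup.induction_on with
    | mk g =>
      show ((κ.k ((g • x.1) j) ((g • y.1) j) : ℝ) : ℂ) = _
      rw [smul_HF_apply, smul_HF_apply, κ.inv]
      rfl
  row := by
    refine ⟨(mass κ).toNNReal, fun x => ?_⟩
    rw [lintegral_baseA j x (f := fun y => ‖kA j κ x y‖ₑ)
      ((measurable_kA j κ).enorm.comp measurable_prodMk_left),
      ENNReal.coe_toNNReal (mass_lt_top κ).ne, ← lintegral_k κ (x.1 j)]
    refine le_of_eq (lintegral_congr fun q => ?_)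
    show ‖((κ.k (x.1 j) (upd x.1 j q j) : ℝ) : ℂ)‖ₑ = _
    rw [upd_same]
    rw [← ofReal_norm, ← ofReal_norm, Complex.norm_real]
  col := by
    refine ⟨(mass κ).toNNReal, fun y => ?_⟩
    rw [lintegral_baseA j y (f := fun x => ‖kA j κ x y‖ₑ)
      ((measurable_kA j κ).enorm.comp measurable_prodMk_right),
      ENNReal.coe_toNNReal (mass_lt_top κ).ne, ← lintegral_k κ (y.1 j)]
    refine le_of_eq (lintegral_congr fun q => ?_)
    show ‖((κ.k (upd y.1 j q j) (y.1 j) : ℝ) : ℂ)‖ₑ = _
    rw [upd_same, κ.symm]
    rw [← ofReal_norm, ← ofReal_norm, Complex.norm_real]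

end Fermat.Agent.LT.Op
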