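import Fermat.Agent.LT.Op.Fub
import Fermat.Agent.LT.Op.Alg

set_option autoImplicit false
set_option linter.unusedSectionVars false

/-!
# Product kernels on joint eigenvectors (no continuous representative is needed)
-/

namespace Fermat.Agent.LT.Op

open MeasureTheory ProbabilityTheory NumberField
open scoped ENNReal NNReal MatrixGroups
open FA Sp Fou

section Bump

open H3

/-- a continuous bump function -/
noncomputable def bmp (R t : ℝ) : ℝ := max 0 (min 1 (R + 2 - |t|))

theorem continuous_bmp (R : ℝ) : Continuous (bmp R) :=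
  continuous_const.max (continuous_const.min (continuous_const.sub continuous_abs))

theorem hasCompactSupport_bmp (R : ℝ) : HasCompactSupport (bmp R) := by
  refine HasCompactSupport.intro (isCompact_Icc (a := -(R + 2)) (b := R + 2)) fun t ht => ?_
  have h1 : R + 2 < |t| := by
    by_contra hcon
    exact ht (abs_le.mp (not_lt.mp hcon))
  rw [bmp]
  exact max_eq_left ((min_le_right _ _).trans (by linarith))

theorem bmp_nonneg (R t : ℝ) : 0 ≤ bmp R t := le_max_left _ _

theorem bmp_eq_one {R t : ℝ} (h : |t| ≤ R) : bmp R t = 1 := by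
  rw [bmp, min_eq_left (by linarith)]
  exact max_eq_right zero_le_one

/-- balls around the base point -/
def bal (R : ℕ) : Set H3 := {q | cd j q ≤ R}

theorem measurableSet_bal (R : ℕ) : MeasurableSet (bal R) := by
  have h3 : Measurable fun q : H3 => H3.cd j q :=
    (H3.continuous_cd.comp (continuous_const.prodMk continuous_id)).measurable
  exact measurableSet_le h3 measurable_const

theorem monotone_bal : Monotone bal := by
  intro R R' h q hq
  have h1 : cd j q ≤ R := hq
  have h2 : (R : ℝ) ≤ R' := by exact_mod_cast h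
  exact h1.trans h2

theorem isOpen_bal_two : IsOpen {q : H3 | cd j q < 2} := by
  have h0 : Continuous fun q : H3 => ((H3.j, q) : H3 × H3) :=
    continuous_const.prodMk continuous_id
  have h1 : Continuous ((fun p : H3 × H3 => H3.cd p.1 p.2) ∘
    fun q : H3 => ((H3.j, q) : H3 × H3)) := H3.continuous_cd.comp h0
  exact isOpen_lt h1 continuous_const

theorem exists_mem_bal (q : H3) : ∃ R, q ∈ bal R := exists_nat_ge (cd j q)

theorem exists_bal (κ : IKer) (x : H3) :
    ∃ R, ∀ y, ((κ.k x y : ℝ) : ℂ) ≠ 0 → y ∈ bal R := by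
  obtain ⟨R, hR⟩ := exists_nat_ge (2 * cd j x * κ.R)
  refine ⟨R, fun y hy => ?_⟩
  have h1 : cd x y ≤ κ.R := by
    by_contra hcon
    exact hy (by rw [κ.supp _ _ (not_le.mp hcon), Complex.ofReal_zero])
  refine le_trans (cd_triangle j x y) (le_trans ?_ hR)
  have h2 := one_le_cd j x
  exact mul_le_mul_of_nonneg_left h1 (by linarith)

end Bump

variable {F : Type*} [Field F] [NumberField F] {D : Type*} [MulAction (GL (Fin 2) F) D]
  [MeasurableSpace D] [DiscreteMeasurableSpace D] [Countable D] [FinPart F D]
  [IsTotallyComplex F] {w : HF F × D → ℝ≥0}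

omit [MulAction (GL (Fin 2) F) D] [FinPart F D] [IsTotallyComplex F] in
/-- slices of almost everywhere statements -/
theorem ae_slice {P : HF F × D → Prop} (h : ∀ᵐ x ∂(muY F D), P x) (d : D) :
    ∀ᵐ p ∂(volume : Measure (HF F)), P (p, d) := by
  have h1 : ∀ᵐ p ∂(volume : Measure (HF F)), ∀ᵐ d ∂(Measure.count : Measure D), P (p, d) :=
    Measure.ae_ae_of_ae_prod h
  filter_upwards [h1] with p hp
  rw [ae_iff, Measure.count_eq_zero_iff] at hp
  by_contra hcon
  have : d ∈ {a | ¬P (p, a)} := hcon
  rw [hp] at this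
  exact this

omit [MulAction (GL (Fin 2) F) D] [FinPart F D] [IsTotallyComplex F] in
theorem ae_of_slice {P : HF F × D → Prop} (h : ∀ d, ∀ᵐ p ∂(volume : Measure (HF F)), P (p, d)) :
    ∀ᵐ x ∂(muY F D), P x := by
  rw [ae_iff]
  have h1 : {x : HF F × D | ¬P x} = ⋃ d : D, {p : HF F | ¬P (p, d)} ×ˢ {d} := by
    ext ⟨p, d⟩
    simp
  rw [h1]
  refine measure_iUnion_null fun d => ?_
  rw [muY, Measure.prod_prod]
  have h2 := h d
  rw [ae_iff] at h2
  rw [h2, zero_mul]

/-- slices of product kernels -/
theorem pk_one_slice (κs : InfinitePlace F → IKer) (p r : HF F) (d : D) :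
    pk κs (DKer.one F D) (p, d) (r, d) = (archK κs p r : ℂ) := by
  rw [pk_apply]
  have : (DKer.one F D).κ d d = 1 := if_pos rfl
  show (archK κs p r : ℂ) * (DKer.one F D).κ d d = _
  rw [this, mul_one]

/-- **local integrability of the vectors** -/
theorem integrableOn_afn (hw : IsWt PGL(2, F) (muY F D) w) (f : HA PGL(2, F) (muY F D)) (d : D)
    (R : ℕ) : IntegrableOn (fun p : InfinitePlace F → H3 => afn f ((p : HF F), d))
      (Set.univ.pi fun _ => bal R) (Measure.pi fun _ => (volume : Measure H3)) := by
  set κs : InfinitePlace F → IKer := fun _ =>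
    H3.kerOf (continuous_bmp (4 * R)) (hasCompactSupport_bmp (4 * R)) with hκs
  have h1 := ae_slice ((kRep_opK hw κs (DKer.one F D)).int f) d
  have hop : Measure.IsOpenPosMeasure (volume : Measure (HF F)) :=
    inferInstanceAs (Measure.IsOpenPosMeasure
      (Measure.pi fun _ : InfinitePlace F => (volume : Measure H3)))
  have hdense := Measure.dense_of_ae h1
  have hU0 : IsOpen (Set.univ.pi fun _ : InfinitePlace F => {q : H3 | H3.cd H3.j q < 2}) :=
    isOpen_set_pi Set.finite_univ fun _ _ => isOpen_bal_two
  have hU : IsOpen {p : HF F | ∀ w : InfinitePlace F, H3.cd H3.j (p w) < 2} := by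
    have e : {p : HF F | ∀ w : InfinitePlace F, H3.cd H3.j (p w) < 2} =
        (Set.univ.pi fun _ : InfinitePlace F => {q : H3 | H3.cd H3.j q < 2}) := by
      ext p
      exact ⟨fun h w _ => h w, fun h w => h w (Set.mem_univ w)⟩
    rw [e]
    exact hU0
  obtain ⟨p, hp2, hp1⟩ := hdense.exists_mem_open hU
    ⟨(fun _ => H3.j : HF F), fun w => by
      show H3.cd H3.j H3.j < 2
      rw [H3.cd_self]
      norm_num⟩
  have h2 : ∀ᵐ e ∂(Measure.count : Measure D), Integrable (fun r : HF F =>
      pk κs (DKer.one F D) (p, d) (r, e) * afn f (r, e)) (volume : Measure (HF F)) :=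
    Integrable.prod_left_ae hp2
  have h3 : Integrable (fun r : HF F => (archK κs p r : ℂ) * afn f (r, d))
      (volume : Measure (HF F)) := by
    rw [ae_iff, Measure.count_eq_zero_iff] at h2
    by_contra hcon
    have : d ∈ {a | ¬Integrable (fun r : HF F =>
      pk κs (DKer.one F D) (p, d) (r, a) * afn f (r, a)) (volume : Measure (HF F))} := by
      show ¬ _
      simp_rw [pk_one_slice]
      exact hcon
    rw [h2] at this
    exact this
  have hm : Measurable fun p : InfinitePlace F → H3 => afn f ((p : HF F), d) :=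
    (measurable_afn f).comp (measurable_id.prodMk measurable_const)
  refine Integrable.mono' (g := fun r : InfinitePlace F → H3 =>
    ‖(archK κs p (r : HF F) : ℂ) * afn f ((r : HF F), d)‖) (Integrable.integrableOn h3.norm)
    hm.aestronglyMeasurable ?_
  rw [ae_restrict_iff' (MeasurableSet.univ_pi fun _ => measurableSet_bal R)]
  refine Filter.Eventually.of_forall fun r hr => ?_
  rw [norm_mul]
  have h4 : archK κs p (r : HF F) = 1 := by
    rw [archK]
    refine Finset.prod_eq_one fun v _ => ?_
    rw [hκs]
    simp only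
    rw [H3.kerOf_k]
    apply bmp_eq_one
    have h5 : H3.cd H3.j (p v) < 2 := hp1 v
    have h6 : H3.cd H3.j (r v) ≤ R := hr v (Set.mem_univ v)
    have h7 := H3.one_le_cd (p v) (r v)
    rw [abs_of_nonneg (by linarith)]
    refine (H3.cd_triangle (p v) H3.j (r v)).trans ?_
    rw [H3.cd_symm (p v)]
    have h8 := H3.one_le_cd H3.j (p v)
    have h9 := H3.one_le_cd H3.j (r v)
    nlinarith
  rw [h4]
  simp

variable [IsFiniteMeasure (wtM (muY F D) w)]

/-- the operator of a purely archimedean product kernel -/
theorem opK_one_eq (hw : IsWt PGL(2, F) (muY F D) w) {f : HA PGL(2, F) (muY F D)}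
    {κs : InfinitePlace F → IKer} {s : InfinitePlace F → ℂ}
    (hs : ∀ j, opA hw j (κs j) f = s j • f) :
    opK hw κs (DKer.one F D) f = (∏ j, s j) • f := by
  classical
  -- the equations
  have h1 : ∀ (d : D) (j : InfinitePlace F),
      ∀ᵐ p ∂(Measure.pi fun _ : InfinitePlace F => (volume : Measure H3)),
      ∫ q, (((κs j).k (p j) q : ℝ) : ℂ) * afn f ((Function.update p j q : HF F), d) =
        s j * afn f ((p : HF F), d) := by
    intro d j
    have h2 : ∀ᵐ x ∂(muY F D), ∫ q : H3, (((κs j).k (x.1 j) q : ℝ) : ℂ) *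
        afn f (upd x.1 j q, x.2) = s j * afn f x := by
      have h3 := opA_ae hw j (κs j) f
      rw [hs j] at h3
      filter_upwards [h3, HA.afn_smulc hw (s j) f] with x hx1 hx2
      rw [← hx1, hx2]
    have h4 := ae_slice h2 d
    have h5 : ∀ᵐ p ∂(Measure.pi fun _ : InfinitePlace F => (volume : Measure H3)),
        ∫ q : H3, (((κs j).k ((p : HF F) j) q : ℝ) : ℂ) * afn f (upd (p : HF F) j q, d) =
        s j * afn f ((p : HF F), d) := h4
    filter_upwards [h5] with p hp
    rw [← hp]
    refine integral_congr_ae (Filter.Eventually.of_forall fun q => ?_)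
    simp only
    rw [upd_eq]
  have h2 : ∀ d : D, ∀ᵐ p ∂(volume : Measure (HF F)),
      ∫ r : HF F, (archK κs p r : ℂ) * afn f (r, d) = (∏ j, s j) * afn f (p, d) := by
    intro d
    have hm : Measurable fun p : InfinitePlace F → H3 => afn f ((p : HF F), d) :=
      (measurable_afn f).comp (measurable_id.prodMk measurable_const)
    have h3 := ae_fub_pi (ν := (volume : Measure H3)) measurableSet_bal monotone_bal
      exists_mem_bal (K := fun (j : InfinitePlace F) x y => (((κs j).k x y : ℝ) : ℂ)) (s := s)
      (f := fun p : InfinitePlace F → H3 => afn f ((p : HF F), d))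
      (fun j => Complex.measurable_ofReal.comp (κs j).cont.measurable)
      (fun j => by
        obtain ⟨C, -, hC⟩ := (κs j).exists_bound
        refine ⟨C, fun x y => ?_⟩
        rw [Complex.norm_real, Real.norm_eq_abs]
        exact hC x y)
      (fun j x => exists_bal (κs j) x) hm (integrableOn_afn hw f d) (h1 d)
    have h4 : ∀ᵐ p ∂(volume : Measure (HF F)),
        ∫ r : InfinitePlace F → H3, (∏ j, (((κs j).k (p j) (r j) : ℝ) : ℂ)) *
          afn f ((r : HF F), d) ∂(Measure.pi fun _ => (volume : Measure H3)) =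
        (∏ j, s j) * afn f (p, d) := h3
    filter_upwards [h4] with p hp
    rw [← hp]
    show ∫ r : InfinitePlace F → H3, (archK κs p (r : HF F) : ℂ) * afn f ((r : HF F), d)
      ∂(Measure.pi fun _ => (volume : Measure H3)) = _
    refine integral_congr_ae (Filter.Eventually.of_forall fun r => ?_)
    simp only
    rw [archK, Complex.ofReal_prod]
  refine HA.ext_ae hw ?_
  filter_upwards [opK_ae hw κs (DKer.one F D) f, HA.afn_smulc hw (∏ j, s j) f,
    ae_of_slice (P := fun x : HF F × D => ∫ r : HF F, (archK κs x.1 r : ℂ) * afn f (r, x.2) =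
      (∏ j, s j) * afn f x) h2] with x hx1 hx2 hx3
  rw [hx1, hx2, ← hx3]
  obtain ⟨p, d⟩ := x
  have e1 : ∀ y : HF F × D, pk κs (DKer.one F D) (p, d) y * afn f y =
      ((archK κs p y.1 : ℂ) * afn f (y.1, d)) * (if y.2 = d then (1 : ℂ) else 0) := by
    intro y
    obtain ⟨r, e⟩ := y
    by_cases h : e = d
    · subst h
      rw [pk_one_slice, if_pos rfl, mul_one]
    · have h0 : (DKer.one F D).κ d e = 0 := if_neg fun h' => h h'.symm
      rw [pk_apply]
      show (archK κs p r : ℂ) * (DKer.one F D).κ d e * _ = _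
      rw [h0, if_neg h]
      ring
  simp_rw [e1]
  have hI : Integrable (fun e : D => if e = d then (1 : ℂ) else 0)
      (Measure.count : Measure D) := by
    rw [integrable_count_iff]
    refine summable_of_ne_finset_zero (s := {d}) fun e he => ?_
    rw [if_neg (by simpa using he), norm_zero]
  have hc : ∫ e : D, (if e = d then (1 : ℂ) else 0) ∂(Measure.count : Measure D) = 1 := by
    rw [integral_countable hI, tsum_eq_single d]
    · rw [if_pos rfl, measureReal_def, Measure.count_singleton]
      simp
    · intro e he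
      rw [if_neg he, smul_zero]
  have h9 := integral_prod_mul (μ := (volume : Measure (HF F)))
    (ν := (Measure.count : Measure D)) (fun r : HF F => (archK κs p r : ℂ) * afn f (r, d))
    (fun e : D => if e = d then (1 : ℂ) else 0)
  rw [hc, mul_one] at h9
  exact h9

/-- **The operator of a product kernel on a joint eigenvector of the archimedean operators.** -/
theorem opK_eq_of_opA (hw : IsWt PGL(2, F) (muY F D) w) {f : HA PGL(2, F) (muY F D)}
    {κs : InfinitePlace F → IKer} {s : InfinitePlace F → ℂ}
    (hs : ∀ j, opA hw j (κs j) f = s j • f) (κf : DKer F D) :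
    opK hw κs κf f = (∏ j, s j) • opD hw κf f := by
  have e1 : (DKer.one F D).comp κf = κf := by
    classical
    refine DKer.ext' fun d d' => ?_
    rw [DKer.comp_κ, finsum_eq_single _ d]
    · have : (DKer.one F D).κ d d = 1 := if_pos rfl
      rw [this, one_mul]
    · intro e he
      have : (DKer.one F D).κ d e = 0 := if_neg fun h => he h.symm
      rw [this, zero_mul]
  have h1 : opK hw κs κf = opK hw κs (DKer.one F D) * opD hw κf := by
    rw [opK_mul_opD, e1]
  rw [h1]
  show opK hw κs (DKer.one F D) (opD hw κf f) = _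
  refine opK_one_eq hw fun j => ?_
  have h2 := congrArg (fun T : HA PGL(2, F) (muY F D) →L[ℂ] HA PGL(2, F) (muY F D) => T f)
    (opA_opD_comm hw j (κs j) κf)
  have h3 : opA hw j (κs j) (opD hw κf f) = opD hw κf (opA hw j (κs j) f) := h2
  rw [h3, hs, map_smul]

theorem opK_eigen (hw : IsWt PGL(2, F) (muY F D) w) {f : HA PGL(2, F) (muY F D)}
    {κs : InfinitePlace F → IKer} {s : InfinitePlace F → ℂ}
    (hs : ∀ j, opA hw j (κs j) f = s j • f) {κf : DKer F D} {c : ℂ}
    (hc : opD hw κf f = c • f) : opK hw κs κf f = ((∏ j, s j) * c) • f := by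
  rw [opK_eq_of_opA hw hs, hc, smul_smul]

end Fermat.Agent.LT.Op
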