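import Fermat.Agent.LT.Op.Arch
import Fermat.Agent.LT.Sp.DKer

set_option autoImplicit false
set_option linter.unusedSectionVars false

/-! # The operators of kernels on the finite part -/

namespace Fermat.Agent.LT.Op

open MeasureTheory ProbabilityTheory NumberField
open scoped ENNReal NNReal MatrixGroups
open FA Sp Fou

variable {F : Type*} [Field F] [NumberField F] {D : Type*} [MeasurableSpace D]
  [DiscreteMeasurableSpace D] [Countable D]

/-- the summation variable -/
def psiD (z : (HF F × D) × D) : HF F × D := (z.1.1, z.2)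

theorem measurable_psiD : Measurable (psiD (F := F) (D := D)) :=
  (measurable_fst.comp measurable_fst).prodMk measurable_snd

theorem lintegral_psiD_symm (h : (HF F × D) × (HF F × D) → ℝ≥0∞) (hh : Measurable h) :
    ∫⁻ x, ∫⁻ q, h (x, psiD (x, q)) ∂Measure.count ∂(muY F D) =
      ∫⁻ y, ∫⁻ q, h (psiD (y, q), y) ∂Measure.count ∂(muY F D) := by
  have m1 : Measurable fun x : HF F × D => ∫⁻ q, h (x, psiD (x, q)) ∂Measure.count :=
    (hh.comp (measurable_fst.prodMk measurable_psiD)).lintegral_prod_right'
  have m2 : Measurable fun x : HF F × D => ∫⁻ q, h (psiD (x, q), x) ∂Measure.count :=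
    (hh.comp (measurable_psiD.prodMk measurable_fst)).lintegral_prod_right'
  rw [muY, lintegral_prod _ m1.aemeasurable, lintegral_prod _ m2.aemeasurable]
  refine lintegral_congr fun p => ?_
  rw [lintegral_lintegral_swap]
  · rfl
  · exact (Measurable.of_discrete (f := fun z : D × D => h ((p, z.1), (p, z.2)))).aemeasurable

variable [MulAction (GL (Fin 2) F) D] [FinPart F D]

theorem measurePreserving_countP (γ : PGL(2, F)) :
    MeasurePreserving (fun d : D => γ • d) Measure.count Measure.count := by
  induction γ using Matrix.ProjGenLinGroup.induction_on with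
  | mk g => exact measurePreserving_count g

/-- the base kernel of the finite part -/
noncomputable def baseD (F : Type*) [Field F] [NumberField F] (D : Type*) [MeasurableSpace D]
    [DiscreteMeasurableSpace D] [Countable D] [MulAction (GL (Fin 2) F) D] [FinPart F D] :
    Base PGL(2, F) (muY F D) :=
  mkBase (Measure.count : Measure D) psiD measurable_psiD lintegral_psiD_symm
    (fun γ d => γ • d) measurePreserving_countP (fun _ _ _ => rfl)

theorem lintegral_baseD (x : HF F × D) {f : HF F × D → ℝ≥0∞} (hf : Measurable f) :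
    ∫⁻ y, f y ∂((baseD F D).B x) = ∑' d', f (x.1, d') := by
  have h := lintegral_pushK (ν := (Measure.count : Measure D)) measurable_psiD x hf
  rw [show (baseD F D).B x = pushK (Measure.count : Measure D) psiD x from rfl, h,
    lintegral_count]
  rfl

theorem integral_baseD (x : HF F × D) {f : HF F × D → ℂ} (hf : Measurable f)
    (s : Finset D) (hs : ∀ d', d' ∉ s → f (x.1, d') = 0) :
    ∫ y, f y ∂((baseD F D).B x) = ∑ d' ∈ s, f (x.1, d') := by
  have h := integral_pushK (ν := (Measure.count : Measure D)) measurable_psiD x hf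
  rw [show (baseD F D).B x = pushK (Measure.count : Measure D) psiD x from rfl, h]
  have hsum : Summable fun d' => ‖f (psiD (x, d'))‖ :=
    summable_of_ne_finset_zero (s := s) fun d' hd' => by
      show ‖f (x.1, d')‖ = 0
      rw [hs d' hd', norm_zero]
  rw [integral_countable (integrable_count_iff.mpr hsum)]
  rw [tsum_eq_sum (s := s)]
  · refine Finset.sum_congr rfl fun d' _ => ?_
    rw [measureReal_def, Measure.count_singleton]
    simp [psiD]
  · intro d' hd'
    show _ • f (x.1, d') = 0
    rw [hs d' hd', smul_zero]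

/-- the density of a kernel on the finite part -/
def kD (κ : DKer F D) (x y : HF F × D) : ℂ := κ.κ x.2 y.2

theorem measurable_kD (κ : DKer F D) : Measurable (Function.uncurry (kD κ)) := by
  have h1 : Measurable fun z : (HF F × D) × (HF F × D) => (z.1.2, z.2.2) :=
    (measurable_snd.comp measurable_fst).prodMk (measurable_snd.comp measurable_snd)
  have h2 : Measurable fun z : D × D => κ.κ z.1 z.2 := Measurable.of_discrete
  exact h2.comp h1

theorem tsum_enorm_le (κ : DKer F D) {C : ℝ} (hC : ∀ d, ∑ᶠ d', ‖κ.κ d d'‖ ≤ C) (d : D) :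
    ∑' d', ‖κ.κ d d'‖ₑ ≤ (C.toNNReal : ℝ≥0) := by
  have e1 : ∑' d', ‖κ.κ d d'‖ₑ = ∑ d' ∈ (κ.finite d).toFinset, ‖κ.κ d d'‖ₑ := by
    refine tsum_eq_sum fun d' hd' => ?_
    rw [Set.Finite.mem_toFinset] at hd'
    rw [not_not.mp hd', enorm_zero]
  have e2 : ∑ᶠ d', ‖κ.κ d d'‖ = ∑ d' ∈ (κ.finite d).toFinset, ‖κ.κ d d'‖ := by
    refine finsum_eq_sum_of_support_subset _ fun d' h => ?_
    rw [Set.Finite.coe_toFinset]
    exact fun h1 => h (by
      show ‖κ.κ d d'‖ = 0
      rw [h1, norm_zero])
  have h := hC d
  rw [e2] at h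
  rw [e1]
  simp_rw [← ofReal_norm]
  rw [← ENNReal.ofReal_sum_of_nonneg (fun _ _ => norm_nonneg _)]
  exact ENNReal.ofReal_le_ofReal h

variable [IsTotallyComplex F]

theorem densD (κ : DKer F D) : Dens (baseD F D) (kD κ) where
  meas := measurable_kD κ
  inv γ x y := by
    induction γ using Matrix.ProjGenLinGroup.induction_on with
    | mk g => exact κ.smul g x.2 y.2
  row := by
    obtain ⟨C, -, hC⟩ := κ.exists_row_bound
    refine ⟨C.toNNReal, fun x => ?_⟩
    rw [lintegral_baseD x (f := fun y => ‖kD κ x y‖ₑ)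
      ((measurable_kD κ).enorm.comp measurable_prodMk_left)]
    exact tsum_enorm_le κ hC x.2
  col := by
    obtain ⟨C, -, hC⟩ := κ.adj.exists_row_bound
    refine ⟨C.toNNReal, fun y => ?_⟩
    rw [lintegral_baseD y (f := fun x => ‖kD κ x y‖ₑ)
      ((measurable_kD κ).enorm.comp measurable_prodMk_right)]
    have h := tsum_enorm_le κ.adj hC y.2
    refine le_trans (le_of_eq ?_) h
    refine tsum_congr fun d' => ?_
    show ‖κ.κ d' y.2‖ₑ = ‖(starRingEnd ℂ) (κ.κ d' y.2)‖ₑ
    rw [RCLike.enorm_conj]

end Fermat.Agent.LT.Op
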