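import Fermat.Agent.LT.Op.Alg
import Fermat.Agent.LT.Spec.Ent

set_option autoImplicit false
set_option linter.unusedSectionVars false

/-! # Finite propagation of the operators -/

namespace Fermat.Agent.LT.Op

open MeasureTheory ProbabilityTheory NumberField
open scoped ENNReal NNReal MatrixGroups
open FA Sp Fou

variable {F : Type*} [Field F] [NumberField F] {D : Type*} [MulAction (GL (Fin 2) F) D]
  [MeasurableSpace D] [DiscreteMeasurableSpace D] [Countable D] [FinPart F D]

theorem measurableSet_ent (C : ℝ) (S : D → Finset D) (x : HF F × D) :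
    MeasurableSet {y : HF F × D | Spec.EntR C S x y} := by
  have h1 : MeasurableSet {y : HF F × D | ∀ w : InfinitePlace F, H3.cd (x.1 w) (y.1 w) ≤ C} := by
    rw [Set.ofPred_forall]
    refine MeasurableSet.iInter fun w => ?_
    have h2 : Measurable fun y : HF F × D => y.1 w := (measurable_apply_HF w).comp measurable_fst
    have h3 : Measurable fun q : H3 => H3.cd (x.1 w) q := by
      have h4 : Measurable fun q : H3 => (x.1 w, q) := measurable_prodMk_left
      exact Measurable.comp (g := fun q : H3 × H3 => H3.cd q.1 q.2)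
        (f := fun q : H3 => (x.1 w, q)) H3.continuous_cd.measurable h4
    exact measurableSet_le (h3.comp h2) measurable_const
  have h2 : MeasurableSet {y : HF F × D | y.2 ∈ S x.2} :=
    measurable_snd (MeasurableSet.of_discrete (s := {d | d ∈ S x.2}))
  exact h1.inter h2

theorem ae_dens {b : Base PGL(2, F) (muY F D)} {k : HF F × D → HF F × D → ℂ}
    (hk : Dens b k) (x : HF F × D) {p : HF F × D → Prop}
    (h : ∀ᵐ y ∂(b.B x), k x y ≠ 0 → p y) : ∀ᵐ y ∂(hk.cor.ker x), p y := by
  have e : hk.cor.ker x = (b.B x).withDensity fun y => ‖k x y‖ₑ :=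
    Kernel.withDensity_apply _ hk.meas_enorm x
  have hm : Measurable fun y => ‖k x y‖ₑ :=
    hk.meas_enorm.comp (measurable_prodMk_left (x := x))
  rw [e, ae_withDensity_iff hm]
  filter_upwards [h] with y hy h0
  exact hy fun h1 => h0 (by rw [h1, enorm_zero])

variable [IsTotallyComplex F]

theorem ae_baseA (j : InfinitePlace F) (x : HF F × D) {p : HF F × D → Prop}
    (hp : MeasurableSet {y | p y}) (h : ∀ q : H3, p (upd x.1 j q, x.2)) :
    ∀ᵐ y ∂((baseA F D j).B x), p y := by
  have hm : Measurable fun q : H3 => (upd x.1 j q, x.2) :=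
    (measurable_upd_right j x.1).prodMk measurable_const
  rw [baseA_B, ae_map_iff hm.aemeasurable hp]
  exact Filter.Eventually.of_forall h

theorem ae_baseD (x : HF F × D) {p : HF F × D → Prop}
    (hp : MeasurableSet {y | p y}) (h : ∀ d : D, p (x.1, d)) :
    ∀ᵐ y ∂((baseD F D).B x), p y := by
  have e : (baseD F D).B x = (Measure.count : Measure D).map (fun d => (x.1, d)) :=
    pushK_apply measurable_psiD x
  have hm : Measurable fun d : D => (x.1, d) := measurable_const.prodMk measurable_id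
  rw [e, ae_map_iff hm.aemeasurable hp]
  exact Filter.Eventually.of_forall h

theorem entC_densA [DecidableEq D] (j : InfinitePlace F) (κ : IKer) :
    Spec.EntC (densA (D := D) j κ).cor := by
  refine ⟨max 1 κ.R, fun d => {d}, fun x => ?_⟩
  refine ae_dens _ x ?_
  have hm : MeasurableSet {y : HF F × D | kA j κ x y ≠ 0 →
      Spec.EntR (max 1 κ.R) (fun d => {d}) x y} := by
    have h1 : MeasurableSet {y : HF F × D | kA j κ x y = 0} :=
      measurable_kA_right j κ x (measurableSet_singleton 0)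
    have h2 := h1.union (measurableSet_ent (max 1 κ.R) (fun d => {d}) x)
    convert h2 using 1
    ext y
    simp only [Set.mem_ofPred_eq, Set.mem_union]
    tauto
  refine ae_baseA j x hm fun q hq => ⟨fun w => ?_, by simp⟩
  by_cases hw : w = j
  · subst hw
    show H3.cd (x.1 w) (upd x.1 w q w) ≤ _
    rw [upd_same]
    refine le_trans ?_ (le_max_right _ _)
    by_contra hcon
    apply hq
    show ((κ.k (x.1 w) (upd x.1 w q w) : ℝ) : ℂ) = 0
    rw [upd_same, κ.supp _ _ (not_le.mp hcon), Complex.ofReal_zero]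
  · show H3.cd (x.1 w) (upd x.1 j q w) ≤ _
    rw [upd_ne _ hw, H3.cd_self]
    exact le_max_left _ _

theorem exists_entR_pk (κs : InfinitePlace F → IKer) (κf : DKer F D) (x y : HF F × D)
    (h : pk κs κf x y ≠ 0) : Spec.EntR (∑ w, |(κs w).R|) (fun d => (κf.finite d).toFinset) x y := by
  have h1 : archK κs x.1 y.1 ≠ 0 := fun h0 => h (by
    rw [pk_apply, h0, Complex.ofReal_zero, zero_mul])
  have h2 : κf.κ x.2 y.2 ≠ 0 := fun h0 => h (by rw [pk_apply, h0, mul_zero])
  refine ⟨fun w => ?_, (Set.Finite.mem_toFinset _).mpr h2⟩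
  have h3 : (κs w).k (x.1 w) (y.1 w) ≠ 0 := (Finset.prod_ne_zero_iff.mp h1) w (Finset.mem_univ w)
  have h4 : H3.cd (x.1 w) (y.1 w) ≤ (κs w).R := by
    by_contra hcon
    exact h3 ((κs w).supp _ _ (not_le.mp hcon))
  refine h4.trans ((le_abs_self _).trans ?_)
  exact Finset.single_le_sum (f := fun w => |(κs w).R|) (fun _ _ => abs_nonneg _)
    (Finset.mem_univ w)

theorem entC_densD (κ : DKer F D) : Spec.EntC (densD κ).cor := by
  classical
  refine ⟨1, fun d => (κ.finite d).toFinset, fun x => ?_⟩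
  refine ae_dens _ x ?_
  have hm : MeasurableSet {y : HF F × D | kD κ x y ≠ 0 →
      Spec.EntR 1 (fun d => (κ.finite d).toFinset) x y} := by
    have h1 : MeasurableSet {y : HF F × D | kD κ x y = 0} :=
      measurable_kD_right κ x (measurableSet_singleton 0)
    have h2 := h1.union (measurableSet_ent 1 (fun d => (κ.finite d).toFinset) x)
    convert h2 using 1
    ext y
    simp only [Set.mem_ofPred_eq, Set.mem_union]
    tauto
  refine ae_baseD x hm fun d hd => ⟨fun w => ?_, (Set.Finite.mem_toFinset _).mpr hd⟩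
  show H3.cd (x.1 w) (x.1 w) ≤ 1
  rw [H3.cd_self]

theorem entC_isFK {k : HF F × D → HF F × D → ℂ} (hk : IsFK PGL(2, F) (muY F D) k)
    (h : ∃ (C : ℝ) (S : D → Finset D), ∀ x y, k x y ≠ 0 → Spec.EntR C S x y) :
    Spec.EntC hk.cor := by
  obtain ⟨C, S, hCS⟩ := h
  refine ⟨C, S, fun x => ?_⟩
  rw [hk.cor_ker, IsFK.kern_apply hk.meas, ae_withDensity_iff (IsFK.measurable_row hk.meas x)]
  refine Filter.Eventually.of_forall fun y h0 => hCS x y fun h1 => h0 ?_
  rw [h1, nnnorm_zero]
  rfl

theorem entC_pk (κs : InfinitePlace F → IKer) (κf : DKer F D) :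
    Spec.EntC (isFK_pk κs κf).cor := by
  classical
  exact entC_isFK _ ⟨_, _, exists_entR_pk κs κf⟩

theorem exists_archK_bdd (κs : InfinitePlace F → IKer) :
    ∃ C : ℝ, 0 ≤ C ∧ ∀ p p', |archK κs p p'| ≤ C := by
  choose C hC0 hC using fun j => (κs j).exists_bound
  refine ⟨∏ j, C j, Finset.prod_nonneg fun j _ => hC0 j, fun p p' => ?_⟩
  rw [archK, Finset.abs_prod]
  exact Finset.prod_le_prod (fun _ _ => abs_nonneg _) fun j _ => hC j _ _

theorem exists_DKer_bound (κf : DKer F D) : ∃ C : ℝ, 0 ≤ C ∧ ∀ d d', ‖κf.κ d d'‖ ≤ C := by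
  obtain ⟨C, hC0, hC⟩ := κf.exists_row_bound
  refine ⟨C, hC0, fun d d' => ?_⟩
  refine le_trans ?_ (hC d)
  exact single_le_finsum d' ((κf.finite d).subset fun e he h => he (by
    show ‖κf.κ d e‖ = 0
    rw [h, norm_zero])) fun _ => norm_nonneg _

theorem nk_pk (κs : InfinitePlace F → IKer) (κf : DKer F D) : Spec.NK (pk κs κf) where
  bdd := by
    obtain ⟨C, hC0, hC⟩ := exists_archK_bdd κs
    obtain ⟨C', -, hC'⟩ := exists_DKer_bound κf
    refine ⟨C * C', fun x y => ?_⟩
    rw [pk_apply, norm_mul, Complex.norm_real, Real.norm_eq_abs]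
    exact mul_le_mul (hC _ _) (hC' _ _) (norm_nonneg _) hC0
  ent := ⟨_, _, exists_entR_pk κs κf⟩

/-! ### kernel level formulas -/

theorem lcmp_dens {b : Base PGL(2, F) (muY F D)} {k₁ : HF F × D → HF F × D → ℂ}
    (hk : Dens b k₁) (k : HF F × D → HF F × D → ℂ) :
    Spec.lcmp hk.cor k = mulK b k₁ k := by
  funext x y
  exact hk.cor_app (fun z => k z y) x

theorem lcmp_densA [DecidableEq (InfinitePlace F)] (j : InfinitePlace F) (κ : IKer)
    (κs : InfinitePlace F → IKer) (κf : DKer F D) :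
    Spec.lcmp (densA (D := D) j κ).cor (pk κs κf) =
      pk (Function.update κs j (IKer.comp κ (κs j))) κf := by
  rw [lcmp_dens, mulK_kA]

theorem lcmp_densD (κ : DKer F D) (κs : InfinitePlace F → IKer) (κf : DKer F D) :
    Spec.lcmp (densD κ).cor (pk κs κf) = pk κs (κ.comp κf) := by
  rw [lcmp_dens, mulK_kD]

theorem lcmp_pk (κs κs' : InfinitePlace F → IKer) (κf κf' : DKer F D) :
    Spec.lcmp (isFK_pk κs κf).cor (pk κs' κf') =
      pk (fun j => IKer.comp (κs j) (κs' j)) (κf.comp κf') := by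
  rw [← cvK_pk]
  funext x y
  exact (isFK_pk κs κf).app_eq (fun z => pk κs' κf' z y) x

theorem rcmp_pk (κs : InfinitePlace F → IKer) (κf κ : DKer F D) :
    Spec.rcmp (pk κs κf) κ = pk κs (κf.comp κ) := by
  funext x z
  rw [Spec.rcmp, pk_apply, DKer.comp_κ]
  have h : ∀ d, pk κs κf x (z.1, d) * κ.κ d z.2 =
      (archK κs x.1 z.1 : ℂ) * (κf.κ x.2 d * κ.κ d z.2) := fun d => by
    rw [pk_apply]; ring
  simp_rw [h]
  exact (mul_finsum _ _).symm

end Fermat.Agent.LT.Op
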