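import Fermat.Agent.LT.Op.Comp
import Fermat.Agent.LT.Op.Fin

set_option autoImplicit false
set_option linter.unusedSectionVars false

/-! # Product kernels on `∏ H³ × D` -/

namespace Fermat.Agent.LT.Op

open MeasureTheory ProbabilityTheory NumberField
open scoped ENNReal NNReal MatrixGroups
open FA Sp Fou

section Arch

variable {F : Type*} [Field F] [NumberField F]

/-- the archimedean part of a product kernel -/
noncomputable def archK (κs : InfinitePlace F → IKer) (p p' : HF F) : ℝ :=
  ∏ j, (κs j).k (p j) (p' j)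

theorem measurable_archK (κs : InfinitePlace F → IKer) :
    Measurable fun q : HF F × HF F => archK κs q.1 q.2 := by
  refine Finset.measurable_prod _ fun j _ => ?_
  have h1 : Measurable fun z : HF F × HF F => z.1 j := (measurable_apply_HF j).comp measurable_fst
  have h2 : Measurable fun z : HF F × HF F => z.2 j := (measurable_apply_HF j).comp measurable_snd
  exact (κs j).cont.measurable.comp (h1.prodMk h2)

theorem measurable_archK_right (κs : InfinitePlace F → IKer) (p : HF F) :
    Measurable fun q : HF F => archK κs p q :=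
  (measurable_archK κs).comp measurable_prodMk_left

theorem archK_smul (κs : InfinitePlace F → IKer) (g : GL (Fin 2) F) (p p' : HF F) :
    archK κs (g • p) (g • p') = archK κs p p' := by
  refine Finset.prod_congr rfl fun j _ => ?_
  rw [smul_HF_apply, smul_HF_apply, (κs j).inv]

theorem archK_symm (κs : InfinitePlace F → IKer) (p p' : HF F) :
    archK κs p p' = archK κs p' p :=
  Finset.prod_congr rfl fun j _ => (κs j).symm _ _

theorem archK_upd [DecidableEq (InfinitePlace F)] (κs : InfinitePlace F → IKer)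
    (j : InfinitePlace F) (p : HF F) (q : H3) (p' : HF F) :
    archK κs (upd p j q) p' =
      (κs j).k q (p' j) * ∏ i ∈ Finset.univ.erase j, (κs i).k (p i) (p' i) := by
  rw [archK, ← Finset.mul_prod_erase Finset.univ _ (Finset.mem_univ j), upd_same]
  congr 1
  refine Finset.prod_congr rfl fun i hi => ?_
  rw [upd_ne p (Finset.ne_of_mem_erase hi)]

theorem archK_update [DecidableEq (InfinitePlace F)] (κs : InfinitePlace F → IKer)
    (j : InfinitePlace F) (κ : IKer) (p p' : HF F) :
    archK (Function.update κs j κ) p p' =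
      κ.k (p j) (p' j) * ∏ i ∈ Finset.univ.erase j, (κs i).k (p i) (p' i) := by
  rw [archK, ← Finset.mul_prod_erase Finset.univ _ (Finset.mem_univ j), Function.update_self]
  congr 1
  refine Finset.prod_congr rfl fun i hi => ?_
  rw [Function.update_of_ne (Finset.ne_of_mem_erase hi)]

theorem integral_archK_mul (κs κs' : InfinitePlace F → IKer) (p p' : HF F) :
    ∫ r : HF F, archK κs p r * archK κs' r p' =
      archK (fun j => IKer.comp (κs j) (κs' j)) p p' := by
  have h := integral_fintype_prod_volume_eq_prod (𝕜 := ℝ) (ι := InfinitePlace F)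
    (E := fun _ => H3) (fun j q => (κs j).k (p j) q * (κs' j).k q (p' j))
  have e : ∀ r : HF F, archK κs p r * archK κs' r p' =
      ∏ j, ((κs j).k (p j) (r j) * (κs' j).k (r j) (p' j)) := fun r => by
    rw [Finset.prod_mul_distrib]; rfl
  simp_rw [e]
  exact h

theorem lintegral_archK (κs : InfinitePlace F → IKer) (p : HF F) :
    ∫⁻ r : HF F, ‖archK κs p r‖ₑ = ∏ j, mass (κs j) := by
  have hi : ∀ j, Integrable fun q => (κs j).k (p j) q := fun j =>
    ((κs j).continuous_right _).integrable_of_hasCompactSupport ((κs j).hasCompactSupport_right _)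
  have h0 := Integrable.fintype_prod (μ := fun _ : InfinitePlace F => (volume : Measure H3))
    (f := fun j q => (κs j).k (p j) q) hi
  have h1 : Integrable (fun r : HF F => archK κs p r) := h0
  have h := integral_fintype_prod_volume_eq_prod (𝕜 := ℝ) (ι := InfinitePlace F)
    (E := fun _ => H3) (fun j q => ‖(κs j).k (p j) q‖)
  have e : ∀ r : HF F, ‖archK κs p r‖ = ∏ j, ‖(κs j).k (p j) (r j)‖ := fun r => norm_prod _ _
  rw [← ofReal_integral_norm_eq_lintegral_enorm h1]
  have h2 : ∫ r : HF F, ‖archK κs p r‖ = ∏ j, ∫ q : H3, ‖(κs j).k (p j) q‖ := by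
    simp_rw [e]
    exact h
  rw [h2, ENNReal.ofReal_prod_of_nonneg fun j _ => integral_nonneg fun q => norm_nonneg _]
  refine Finset.prod_congr rfl fun j _ => ?_
  rw [ofReal_integral_norm_eq_lintegral_enorm (hi j), lintegral_k]

end Arch

variable {F : Type*} [Field F] [NumberField F] {D : Type*} [MulAction (GL (Fin 2) F) D]

/-- product kernels -/
noncomputable def pk (κs : InfinitePlace F → IKer) (κf : DKer F D) (x y : HF F × D) : ℂ :=
  (archK κs x.1 y.1 : ℂ) * κf.κ x.2 y.2

theorem pk_apply (κs : InfinitePlace F → IKer) (κf : DKer F D) (x y : HF F × D) :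
    pk κs κf x y = (archK κs x.1 y.1 : ℂ) * κf.κ x.2 y.2 := rfl

variable [MeasurableSpace D] [DiscreteMeasurableSpace D] [Countable D] [FinPart F D]

theorem measurable_pk (κs : InfinitePlace F → IKer) (κf : DKer F D) :
    Measurable (Function.uncurry (pk κs κf)) := by
  have h1 : Measurable fun z : (HF F × D) × (HF F × D) => (z.1.1, z.2.1) :=
    (measurable_fst.comp measurable_fst).prodMk (measurable_fst.comp measurable_snd)
  have h2 : Measurable fun z : (HF F × D) × (HF F × D) => archK κs z.1.1 z.2.1 :=
    (measurable_archK κs).comp h1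
  exact (Complex.measurable_ofReal.comp h2).mul (measurable_kD κf)

theorem pk_smul (κs : InfinitePlace F → IKer) (κf : DKer F D) (γ : PGL(2, F)) (x y : HF F × D) :
    pk κs κf (γ • x) (γ • y) = pk κs κf x y := by
  induction γ using Matrix.ProjGenLinGroup.induction_on with
  | mk g =>
    show ((archK κs (g • x.1) (g • y.1) : ℝ) : ℂ) * κf.κ (g • x.2) (g • y.2) = _
    rw [archK_smul, κf.smul]
    rfl

theorem lintegral_pk (κs : InfinitePlace F → IKer) (κf : DKer F D) (x : HF F × D) :
    ∫⁻ y, ‖pk κs κf x y‖ₑ ∂(muY F D) =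
      (∏ j, mass (κs j)) * ∑' d', ‖κf.κ x.2 d'‖ₑ := by
  have e : ∀ y : HF F × D, ‖pk κs κf x y‖ₑ = ‖archK κs x.1 y.1‖ₑ * ‖κf.κ x.2 y.2‖ₑ := by
    intro y
    rw [pk_apply, enorm_mul]
    congr 1
    rw [← ofReal_norm, ← ofReal_norm, Complex.norm_real]
  simp_rw [e]
  rw [muY, lintegral_prod_mul (measurable_archK_right κs x.1).enorm.aemeasurable
    (Measurable.of_discrete (f := fun d' => ‖κf.κ x.2 d'‖ₑ)).aemeasurable, lintegral_archK,
    lintegral_count]

variable [IsTotallyComplex F]

theorem pk_adj (κs : InfinitePlace F → IKer) (κf : DKer F D) :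
    (fun x y => (starRingEnd ℂ) (pk κs κf y x)) = pk κs κf.adj := by
  funext x y
  rw [pk_apply, pk_apply, map_mul, Complex.conj_ofReal, archK_symm]
  rfl

theorem isFK_pk (κs : InfinitePlace F → IKer) (κf : DKer F D) :
    IsFK PGL(2, F) (muY F D) (pk κs κf) where
  meas := measurable_pk κs κf
  inv := pk_smul κs κf
  bdd := by
    have hm : (∏ j, mass (κs j)) ≠ ∞ := ENNReal.prod_ne_top fun j _ => (mass_lt_top _).ne
    obtain ⟨C, -, hC⟩ := κf.exists_row_bound
    obtain ⟨C', -, hC'⟩ := κf.adj.exists_row_bound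
    refine ⟨(∏ j, mass (κs j)).toNNReal * max C.toNNReal C'.toNNReal, fun x => ?_, fun y => ?_⟩
    · rw [lintegral_pk, ENNReal.coe_mul, ENNReal.coe_toNNReal hm]
      refine mul_le_mul_right ((tsum_enorm_le κf hC x.2).trans ?_) _
      exact_mod_cast le_max_left _ _
    · have e : ∀ x, ‖pk κs κf x y‖ₑ = ‖pk κs κf.adj y x‖ₑ := fun x => by
        rw [← congrFun (congrFun (pk_adj κs κf) y) x, RCLike.enorm_conj]
      simp_rw [e]
      rw [lintegral_pk, ENNReal.coe_mul, ENNReal.coe_toNNReal hm]
      refine mul_le_mul_right ((tsum_enorm_le κf.adj hC' y.2).trans ?_) _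
      exact_mod_cast le_max_right _ _

theorem measurable_pk_left (κs : InfinitePlace F → IKer) (κf : DKer F D) (z : HF F × D) :
    Measurable fun y : HF F × D => pk κs κf y z := by
  have h1 : Measurable fun y : HF F × D => (y, z) := measurable_prodMk_right
  exact Measurable.comp (g := Function.uncurry (pk κs κf)) (f := fun y : HF F × D => (y, z))
    (measurable_pk κs κf) h1

theorem measurable_kA_right (j : InfinitePlace F) (κ : IKer) (x : HF F × D) :
    Measurable fun y : HF F × D => kA j κ x y := by
  have h1 : Measurable fun y : HF F × D => (x, y) := measurable_prodMk_left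
  exact Measurable.comp (g := Function.uncurry (kA j κ)) (f := fun y : HF F × D => (x, y))
    (measurable_kA j κ) h1

theorem measurable_kD_right (κ : DKer F D) (x : HF F × D) :
    Measurable fun y : HF F × D => kD κ x y := by
  have h1 : Measurable fun y : HF F × D => (x, y) := measurable_prodMk_left
  exact Measurable.comp (g := Function.uncurry (kD κ)) (f := fun y : HF F × D => (x, y))
    (measurable_kD κ) h1

/-- left multiplication by an archimedean operator -/
theorem mulK_kA [DecidableEq (InfinitePlace F)] (j : InfinitePlace F) (κ : IKer)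
    (κs : InfinitePlace F → IKer) (κf : DKer F D) :
    mulK (baseA F D j) (kA j κ) (pk κs κf) =
      pk (Function.update κs j (IKer.comp κ (κs j))) κf := by
  funext x z
  have hm : Measurable fun y => kA j κ x y * pk κs κf y z :=
    (measurable_kA_right j κ x).mul (measurable_pk_left κs κf z)
  rw [mulK, integral_baseA j x hm, pk_apply, archK_update, IKer.comp_k]
  have e : ∀ q : H3, kA j κ x (upd x.1 j q, x.2) * pk κs κf (upd x.1 j q, x.2) z =
      ((κ.k (x.1 j) q * (κs j).k q (z.1 j) : ℝ) : ℂ) *
        (((∏ i ∈ Finset.univ.erase j, (κs i).k (x.1 i) (z.1 i) : ℝ) : ℂ) * κf.κ x.2 z.2) := by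
    intro q
    show ((κ.k (x.1 j) (upd x.1 j q j) : ℝ) : ℂ) *
      (((archK κs (upd x.1 j q) z.1 : ℝ) : ℂ) * κf.κ x.2 z.2) = _
    rw [upd_same, archK_upd]
    push_cast
    ring
  simp_rw [e]
  rw [integral_mul_const, integral_complex_ofReal]
  push_cast
  ring

/-- left multiplication by a finite operator -/
theorem mulK_kD (κ : DKer F D) (κs : InfinitePlace F → IKer) (κf : DKer F D) :
    mulK (baseD F D) (kD κ) (pk κs κf) = pk κs (κ.comp κf) := by
  funext x z
  have hm : Measurable fun y => kD κ x y * pk κs κf y z :=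
    (measurable_kD_right κ x).mul (measurable_pk_left κs κf z)
  rw [mulK, integral_baseD x hm (κ.finite x.2).toFinset, pk_apply, DKer.comp_κ_sum,
    Finset.mul_sum]
  · refine Finset.sum_congr rfl fun d' _ => ?_
    show κ.κ x.2 d' * (((archK κs x.1 z.1 : ℝ) : ℂ) * κf.κ d' z.2) = _
    ring
  · intro d' hd'
    show κ.κ x.2 d' * pk κs κf (x.1, d') z = 0
    rw [Set.Finite.mem_toFinset] at hd'
    rw [not_not.mp hd', zero_mul]

/-- composition of product kernels -/
theorem cvK_pk (κs κs' : InfinitePlace F → IKer) (κf κf' : DKer F D) :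
    cvK (muY F D) (pk κs κf) (pk κs' κf') =
      pk (fun j => IKer.comp (κs j) (κs' j)) (κf.comp κf') := by
  funext x z
  have e : ∀ y : HF F × D, pk κs κf x y * pk κs' κf' y z =
      ((archK κs x.1 y.1 * archK κs' y.1 z.1 : ℝ) : ℂ) * (κf.κ x.2 y.2 * κf'.κ y.2 z.2) := by
    intro y
    rw [pk_apply, pk_apply]
    push_cast
    ring
  rw [cvK]
  simp_rw [e]
  rw [muY, integral_prod_mul (fun p : HF F => ((archK κs x.1 p * archK κs' p z.1 : ℝ) : ℂ))
    (fun d : D => κf.κ x.2 d * κf'.κ d z.2), integral_complex_ofReal, integral_archK_mul,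
    pk_apply]
  congr 1
  rw [DKer.comp_κ_sum]
  have h0 : ∀ d, d ∉ (κf.finite x.2).toFinset → κf.κ x.2 d * κf'.κ d z.2 = 0 := by
    intro d hd
    rw [Set.Finite.mem_toFinset] at hd
    rw [not_not.mp hd, zero_mul]
  have hsum : Summable fun d => ‖κf.κ x.2 d * κf'.κ d z.2‖ :=
    summable_of_ne_finset_zero (s := (κf.finite x.2).toFinset) fun d hd => by
      rw [h0 d hd, norm_zero]
  rw [integral_countable (integrable_count_iff.mpr hsum),
    tsum_eq_sum (s := (κf.finite x.2).toFinset)]
  · refine Finset.sum_congr rfl fun d' _ => ?_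
    rw [measureReal_def, Measure.count_singleton]
    simp
  · intro d hd
    rw [h0 d hd, smul_zero]

end Fermat.Agent.LT.Op
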