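import Fermat.Agent.LT.Op.Bdd

set_option autoImplicit false
set_option linter.unusedSectionVars false

/-! # Correspondences from a reversible base kernel and a density -/

namespace Fermat.Agent.LT.Op

open MeasureTheory ProbabilityTheory
open scoped ENNReal NNReal InnerProductSpace
open FA

variable {G Y : Type*} [Group G] [MulAction G Y] [MeasurableSpace Y] [MeasurableConstSMul G Y]
  {μ : Measure Y} [SMulInvariantMeasure G Y μ] [Countable G] {w : Y → ℝ≥0}

/-- a reversible equivariant kernel -/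
structure Base (G : Type*) {Y : Type*} [Group G] [MulAction G Y] [MeasurableSpace Y]
    (μ : Measure Y) where
  B : Kernel Y Y
  sfin : IsSFiniteKernel B
  lint : ∀ h : Y × Y → ℝ≥0∞, Measurable h →
    ∫⁻ x, ∫⁻ y, h (x, y) ∂(B x) ∂μ = ∫⁻ y, ∫⁻ x, h (x, y) ∂(B y) ∂μ
  equiv : ∀ (g : G) (x : Y), B (g • x) = (B x).map (g • ·)

attribute [instance] Base.sfin

/-- an invariant density with respect to a base kernel -/
structure Dens (b : Base G μ) (k : Y → Y → ℂ) : Prop where
  meas : Measurable (Function.uncurry k)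
  inv : ∀ (g : G) x y, k (g • x) (g • y) = k x y
  row : ∃ C : ℝ≥0, ∀ x, ∫⁻ y, ‖k x y‖ₑ ∂(b.B x) ≤ C
  col : ∃ C : ℝ≥0, ∀ y, ∫⁻ x, ‖k x y‖ₑ ∂(b.B y) ≤ C

/-- the phase of a kernel -/
noncomputable def phase (k : Y → Y → ℂ) (x y : Y) : ℂ := k x y / (‖k x y‖ : ℂ)

theorem phase_mul (k : Y → Y → ℂ) (x y : Y) : (‖k x y‖ : ℂ) * phase k x y = k x y := by
  rw [phase]
  by_cases h : k x y = 0
  · rw [h]; simp
  · have : (‖k x y‖ : ℂ) ≠ 0 := by exact_mod_cast norm_ne_zero_iff.mpr h
    field_simp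

theorem norm_phase_le (k : Y → Y → ℂ) (x y : Y) : ‖phase k x y‖ ≤ 1 := by
  rw [phase, norm_div, Complex.norm_real, norm_norm]
  exact div_self_le_one _

variable {b : Base G μ} {k : Y → Y → ℂ}

namespace Dens

theorem meas_enorm (hk : Dens b k) : Measurable (Function.uncurry fun x y => ‖k x y‖ₑ) :=
  hk.meas.enorm

theorem meas_enorm' (hk : Dens b k) : Measurable (Function.uncurry fun y x => ‖k x y‖ₑ) :=
  hk.meas.enorm.comp measurable_swap

theorem isFin (hk : Dens b k) : IsFiniteKernel (b.B.withDensity fun x y => ‖k x y‖ₑ) := by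
  obtain ⟨C, hC⟩ := hk.row
  refine ⟨C, ENNReal.coe_lt_top, fun x => ?_⟩
  rw [Kernel.withDensity_apply' _ hk.meas_enorm, Measure.restrict_univ]
  exact hC x

theorem isFin' (hk : Dens b k) : IsFiniteKernel (b.B.withDensity fun y x => ‖k x y‖ₑ) := by
  obtain ⟨C, hC⟩ := hk.col
  refine ⟨C, ENNReal.coe_lt_top, fun x => ?_⟩
  rw [Kernel.withDensity_apply' _ hk.meas_enorm', Measure.restrict_univ]
  exact hC x

theorem equiv_aux (_ : Dens b k) {k' : Y → Y → ℝ≥0∞} (hm : Measurable (Function.uncurry k'))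
    (hi : ∀ (g : G) x y, k' (g • x) (g • y) = k' x y) (g : G) (x : Y) :
    (b.B.withDensity k') (g • x) = ((b.B.withDensity k') x).map (g • ·) := by
  ext s hs
  rw [Measure.map_apply (measurable_const_smul g) hs, Kernel.withDensity_apply' _ hm,
    Kernel.withDensity_apply' _ hm, b.equiv]
  rw [← lintegral_indicator hs, ← lintegral_indicator (measurable_const_smul g hs),
    (measurableEmbedding_const_smul g).lintegral_map]
  refine lintegral_congr fun y => ?_
  by_cases h : g • y ∈ s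
  · rw [Set.indicator_of_mem h, Set.indicator_of_mem (by exact h), hi]
  · rw [Set.indicator_of_notMem h, Set.indicator_of_notMem (by exact h)]

/-- the correspondence -/
noncomputable def cor (hk : Dens b k) : Cor G μ where
  ker := b.B.withDensity fun x y => ‖k x y‖ₑ
  dual := b.B.withDensity fun y x => ‖k x y‖ₑ
  fin := hk.isFin
  fin' := hk.isFin'
  lint h hh := by
    have e1 : ∀ x, ∫⁻ y, h (x, y) ∂((b.B.withDensity fun x y => ‖k x y‖ₑ) x) =
        ∫⁻ y, ‖k x y‖ₑ * h (x, y) ∂(b.B x) := fun x =>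
      Kernel.lintegral_withDensity _ hk.meas_enorm x (hh.comp measurable_prodMk_left)
    have e2 : ∀ y, ∫⁻ x, h (x, y) ∂((b.B.withDensity fun y x => ‖k x y‖ₑ) y) =
        ∫⁻ x, ‖k x y‖ₑ * h (x, y) ∂(b.B y) := fun y =>
      Kernel.lintegral_withDensity _ hk.meas_enorm' y (hh.comp measurable_prodMk_right)
    simp_rw [e1, e2]
    exact b.lint (fun p => ‖k p.1 p.2‖ₑ * h p) (hk.meas.enorm.mul hh)
  equiv g x := hk.equiv_aux hk.meas_enorm (fun g x y => by rw [hk.inv]) g x
  equiv' g x := hk.equiv_aux hk.meas_enorm' (fun g x y => by rw [hk.inv]) g x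
  a := phase k
  a_meas := by
    have h1 : Measurable fun p : Y × Y => ((‖k p.1 p.2‖ : ℝ) : ℂ) :=
      Complex.measurable_ofReal.comp hk.meas.norm
    exact hk.meas.div h1
  a_le := norm_phase_le k
  a_inv g x y := by rw [phase, phase, hk.inv]

theorem cor_app (hk : Dens b k) (F : Y → ℂ) (x : Y) :
    hk.cor.app F x = ∫ y, k x y * F y ∂(b.B x) := by
  rw [Cor.app]
  show ∫ y, phase k x y * F y ∂((b.B.withDensity fun x y => ‖k x y‖ₑ) x) = _
  rw [Kernel.withDensity_apply _ hk.meas_enorm]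
  have hm : Measurable fun y => ‖k x y‖₊ := (hk.meas.comp measurable_prodMk_left).nnnorm
  have e : (fun y => ‖k x y‖ₑ) = fun y => ((‖k x y‖₊ : ℝ≥0) : ℝ≥0∞) := rfl
  rw [e, integral_withDensity_eq_integral_smul hm]
  refine integral_congr_ae (Filter.Eventually.of_forall fun y => ?_)
  simp only
  rw [NNReal.smul_def, Complex.real_smul, ← mul_assoc, coe_nnnorm, phase_mul]

/-- the adjoint density -/
theorem adj (hk : Dens b k) : Dens b (fun x y => (starRingEnd ℂ) (k y x)) where
  meas := Complex.continuous_conj.measurable.comp (hk.meas.comp measurable_swap)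
  inv g x y := by rw [hk.inv]
  row := by
    obtain ⟨C, hC⟩ := hk.col
    exact ⟨C, fun x => by simpa [RCLike.enorm_conj] using hC x⟩
  col := by
    obtain ⟨C, hC⟩ := hk.row
    exact ⟨C, fun x => by simpa [RCLike.enorm_conj] using hC x⟩

theorem cor_adj (hk : Dens b k) [SFinite μ] (hw : IsWt G μ w) [IsFiniteMeasure (wtM μ w)] :
    ContinuousLinearMap.adjoint (hk.cor.op hw) = hk.adj.cor.op hw := by
  rw [Cor.op_adj]
  refine op_eq_op _ _ hw fun F hF => Filter.Eventually.of_forall fun x => ?_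
  rw [cor_app]
  show ∫ y, (starRingEnd ℂ) (phase k y x) * F y ∂((b.B.withDensity fun y x => ‖k x y‖ₑ) x) = _
  rw [Kernel.withDensity_apply _ hk.meas_enorm']
  have hm : Measurable fun y => ‖k y x‖₊ := (hk.meas.comp measurable_prodMk_right).nnnorm
  have e : (fun y => ‖k y x‖ₑ) = fun y => ((‖k y x‖₊ : ℝ≥0) : ℝ≥0∞) := rfl
  rw [e, integral_withDensity_eq_integral_smul hm]
  refine integral_congr_ae (Filter.Eventually.of_forall fun y => ?_)
  simp only
  rw [NNReal.smul_def, Complex.real_smul, ← mul_assoc, coe_nnnorm]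
  congr 1
  conv_rhs => rw [← phase_mul k y x]
  rw [map_mul, Complex.conj_ofReal]

theorem add {k' : Y → Y → ℂ} (hk : Dens b k) (hk' : Dens b k') :
    Dens b (fun x y => k x y + k' x y) where
  meas := hk.meas.add hk'.meas
  inv g x y := by rw [hk.inv, hk'.inv]
  row := by
    obtain ⟨C, hC⟩ := hk.row
    obtain ⟨C', hC'⟩ := hk'.row
    refine ⟨C + C', fun x => ?_⟩
    refine (lintegral_mono fun y => enorm_add_le _ _).trans ?_
    have hm : Measurable fun y => ‖k x y‖ₑ := hk.meas.enorm.comp measurable_prodMk_left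
    rw [lintegral_add_left hm]
    push_cast
    exact add_le_add (hC x) (hC' x)
  col := by
    obtain ⟨C, hC⟩ := hk.col
    obtain ⟨C', hC'⟩ := hk'.col
    refine ⟨C + C', fun y => ?_⟩
    refine (lintegral_mono fun x => enorm_add_le _ _).trans ?_
    have hm : Measurable fun x => ‖k x y‖ₑ := hk.meas.enorm.comp measurable_prodMk_right
    rw [lintegral_add_left hm]
    push_cast
    exact add_le_add (hC y) (hC' y)

theorem cmul (hk : Dens b k) (c : ℂ) : Dens b (fun x y => c * k x y) where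
  meas := hk.meas.const_mul c
  inv g x y := by rw [hk.inv]
  row := by
    obtain ⟨C, hC⟩ := hk.row
    refine ⟨‖c‖₊ * C, fun x => ?_⟩
    simp_rw [enorm_mul]
    rw [lintegral_const_mul' _ _ (by simp)]
    push_cast
    exact mul_le_mul_right (hC x) _
  col := by
    obtain ⟨C, hC⟩ := hk.col
    refine ⟨‖c‖₊ * C, fun x => ?_⟩
    simp_rw [enorm_mul]
    rw [lintegral_const_mul' _ _ (by simp)]
    push_cast
    exact mul_le_mul_right (hC x) _

theorem integrable (hk : Dens b k) {F : Y → ℂ} (hF : IsBF G F) (x : Y) :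
    Integrable (fun y => k x y * F y) (b.B x) := by
  obtain ⟨C, hC⟩ := hk.row
  obtain ⟨C', hC'⟩ := hF.bdd
  have h1 : Integrable (fun y => k x y) (b.B x) :=
    ⟨(hk.meas.comp measurable_prodMk_left).aestronglyMeasurable,
      lt_of_le_of_lt (hC x) ENNReal.coe_lt_top⟩
  exact h1.mul_bdd (c := C') hF.meas.aestronglyMeasurable (Filter.Eventually.of_forall hC')

theorem op_add {k' : Y → Y → ℂ} (hk : Dens b k) (hk' : Dens b k') [SFinite μ] (hw : IsWt G μ w)
    [IsFiniteMeasure (wtM μ w)] :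
    (hk.add hk').cor.op hw = hk.cor.op hw + hk'.cor.op hw := by
  refine ext_bmk hw fun F hF => ?_
  rw [add_apply, op_bmk _ hw hF, op_bmk _ hw hF, op_bmk _ hw hF]
  refine HA.ext_ae hw ?_
  filter_upwards [afn_bmk hw (hF.app (hk.add hk').cor), afn_bmk hw (hF.app hk.cor),
    afn_bmk hw (hF.app hk'.cor), HA.afn_add hw (bmk hw (hF.app hk.cor)) (bmk hw (hF.app hk'.cor))]
    with x h1 h2 h3 h4
  rw [h1, h4, h2, h3, cor_app, cor_app, cor_app, ← integral_add (hk.integrable hF x)
    (hk'.integrable hF x)]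
  refine integral_congr_ae (Filter.Eventually.of_forall fun y => ?_)
  simp only
  ring

theorem op_cmul (hk : Dens b k) (c : ℂ) [SFinite μ] (hw : IsWt G μ w)
    [IsFiniteMeasure (wtM μ w)] : (hk.cmul c).cor.op hw = c • hk.cor.op hw := by
  refine ext_bmk hw fun F hF => ?_
  rw [smul_apply, op_bmk _ hw hF, op_bmk _ hw hF]
  refine HA.ext_ae hw ?_
  filter_upwards [afn_bmk hw (hF.app (hk.cmul c).cor), afn_bmk hw (hF.app hk.cor),
    HA.afn_smulc hw c (bmk hw (hF.app hk.cor))]
    with x h1 h2 h3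
  rw [h1, h3, h2, cor_app, cor_app, ← integral_const_mul]
  refine integral_congr_ae (Filter.Eventually.of_forall fun y => ?_)
  simp only
  ring

end Dens

end Fermat.Agent.LT.Op
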