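import Fermat.Agent.LT.FA.Cor

set_option autoImplicit false
set_option linter.unusedSectionVars false

/-! # Bounded automorphic functions are dense; relations between correspondences -/

namespace Fermat.Agent.LT.Op

open MeasureTheory ProbabilityTheory
open scoped ENNReal NNReal InnerProductSpace
open FA

variable {G Y : Type*} [Group G] [MulAction G Y] [MeasurableSpace Y] [MeasurableConstSMul G Y]
  {μ : Measure Y} [SMulInvariantMeasure G Y μ] [Countable G] {w : Y → ℝ≥0}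

/-- bounded measurable invariant functions -/
structure IsBF (G : Type*) {Y : Type*} [Group G] [MulAction G Y] [MeasurableSpace Y]
    (F : Y → ℂ) : Prop where
  meas : Measurable F
  inv : ∀ (g : G) y, F (g • y) = F y
  bdd : ∃ C : ℝ, ∀ y, ‖F y‖ ≤ C

namespace IsBF

theorem memLp [IsFiniteMeasure (wtM μ w)] {F : Y → ℂ} (hF : IsBF G F) : MemLp F 2 (wtM μ w) := by
  obtain ⟨C, hC⟩ := hF.bdd
  exact MemLp.of_bound hF.meas.aestronglyMeasurable C (Filter.Eventually.of_forall hC)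

theorem add {F F' : Y → ℂ} (h : IsBF G F) (h' : IsBF G F') : IsBF G (fun y => F y + F' y) where
  meas := h.meas.add h'.meas
  inv g y := by rw [h.inv, h'.inv]
  bdd := by
    obtain ⟨C, hC⟩ := h.bdd
    obtain ⟨C', hC'⟩ := h'.bdd
    exact ⟨C + C', fun y => (norm_add_le _ _).trans (add_le_add (hC y) (hC' y))⟩

theorem cmul {F : Y → ℂ} (h : IsBF G F) (c : ℂ) : IsBF G (fun y => c * F y) where
  meas := h.meas.const_mul c
  inv g y := by rw [h.inv]
  bdd := by
    obtain ⟨C, hC⟩ := h.bdd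
    exact ⟨‖c‖ * C, fun y => by
      rw [norm_mul]
      exact mul_le_mul_of_nonneg_left (hC y) (norm_nonneg _)⟩

theorem app (T : Cor G μ) {F : Y → ℂ} (h : IsBF G F) : IsBF G (T.app F) where
  meas := T.measurable_app h.meas
  inv := T.app_inv h.inv
  bdd := by
    obtain ⟨C, hC⟩ := h.bdd
    refine ⟨C * (T.ker.bound).toReal, fun x => ?_⟩
    have hC0 : 0 ≤ C := (norm_nonneg _).trans (hC x)
    rw [Cor.app]
    refine (norm_integral_le_of_norm_le_const (C := C)
      (Filter.Eventually.of_forall fun y => ?_)).trans ?_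
    · rw [norm_mul]
      calc ‖T.a x y‖ * ‖F y‖ ≤ 1 * C := mul_le_mul (T.a_le x y) (hC y) (norm_nonneg _) zero_le_one
        _ = C := one_mul C
    · refine mul_le_mul_of_nonneg_left ?_ hC0
      exact ENNReal.toReal_mono (Kernel.bound_lt_top _).ne (T.ker.measure_le_bound x _)

end IsBF

/-- the vector of a bounded function -/
noncomputable def bmk (hw : IsWt G μ w) [IsFiniteMeasure (wtM μ w)] {F : Y → ℂ} (hF : IsBF G F) :
    HA G μ := HA.mk hw F hF.meas hF.inv hF.memLp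

theorem afn_bmk (hw : IsWt G μ w) [IsFiniteMeasure (wtM μ w)] {F : Y → ℂ} (hF : IsBF G F) :
    ∀ᵐ y ∂μ, afn (bmk hw hF) y = F y := HA.afn_mk hw _ _ _

theorem bmk_eq (hw : IsWt G μ w) [IsFiniteMeasure (wtM μ w)] {F F' : Y → ℂ} (hF : IsBF G F)
    (hF' : IsBF G F') (h : ∀ᵐ y ∂μ, F y = F' y) : bmk hw hF = bmk hw hF' := by
  refine HA.ext_ae hw ?_
  filter_upwards [afn_bmk hw hF, afn_bmk hw hF', h] with y h1 h2 h3
  rw [h1, h2, h3]

theorem eq_bmk (hw : IsWt G μ w) [IsFiniteMeasure (wtM μ w)] {F : Y → ℂ} (hF : IsBF G F)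
    {f : HA G μ} (h : ∀ᵐ y ∂μ, afn f y = F y) : f = bmk hw hF := by
  refine HA.ext_ae hw ?_
  filter_upwards [afn_bmk hw hF, h] with y h1 h2
  rw [h1, h2]

theorem op_bmk (T : Cor G μ) [SFinite μ] (hw : IsWt G μ w) [IsFiniteMeasure (wtM μ w)]
    {F : Y → ℂ} (hF : IsBF G F) : T.op hw (bmk hw hF) = bmk hw (hF.app T) := by
  apply eq_bmk
  filter_upwards [T.op_ae hw (bmk hw hF), T.app_congr (afn_bmk hw hF)] with y h1 h2
  rw [h1, h2]

/-- **Two bounded operators agreeing on bounded functions are equal.** -/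
theorem ext_bmk (hw : IsWt G μ w) [IsFiniteMeasure (wtM μ w)] {E : Type*}
    [NormedAddCommGroup E] [NormedSpace ℂ E] {A B : HA G μ →L[ℂ] E}
    (h : ∀ (F : Y → ℂ) (hF : IsBF G F), A (bmk hw hF) = B (bmk hw hF)) : A = B := by
  have hd : DenseRange ((↑) : Lp.simpleFunc ℂ 2 (qMeas G μ) → Lp ℂ 2 (qMeas G μ)) :=
    Lp.simpleFunc.denseRange (by norm_num)
  apply ContinuousLinearMap.coeFn_injective
  refine hd.equalizer A.continuous B.continuous ?_
  funext s
  set t := Lp.simpleFunc.toSimpleFunc s with ht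
  have hF : IsBF G (fun y => t (qmk G y)) := by
    refine ⟨t.measurable.comp measurable_qmk, fun g y => by rw [qmk_smul], ?_⟩
    obtain ⟨C, hC⟩ := t.exists_forall_norm_le
    exact ⟨C, fun y => hC _⟩
  have e : (s : Lp ℂ 2 (qMeas G μ)) = bmk hw hF := by
    refine eq_bmk hw hF ?_
    exact hw.ae_qMeas (p := fun x => (s : Lp ℂ 2 (qMeas G μ)) x = t x)
      (Lp.simpleFunc.toSimpleFunc_eq_toFun s).symm
  rw [Function.comp_apply, Function.comp_apply, e]
  exact h _ hF

/-- relations between correspondences -/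
theorem op_mul_op (S T U : Cor G μ) [SFinite μ] (hw : IsWt G μ w) [IsFiniteMeasure (wtM μ w)]
    (h : ∀ F : Y → ℂ, IsBF G F → ∀ᵐ y ∂μ, S.app (T.app F) y = U.app F y) :
    S.op hw * T.op hw = U.op hw := by
  refine ext_bmk hw fun F hF => ?_
  rw [mul_apply_eq_comp, op_bmk T hw hF, op_bmk S hw (hF.app T), op_bmk U hw hF]
  exact bmk_eq hw _ _ (h F hF)

theorem op_comm (S T : Cor G μ) [SFinite μ] (hw : IsWt G μ w) [IsFiniteMeasure (wtM μ w)]
    (h : ∀ F : Y → ℂ, IsBF G F → ∀ᵐ y ∂μ, S.app (T.app F) y = T.app (S.app F) y) :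
    S.op hw * T.op hw = T.op hw * S.op hw := by
  refine ext_bmk hw fun F hF => ?_
  rw [mul_apply_eq_comp, mul_apply_eq_comp, op_bmk T hw hF,
    op_bmk S hw (hF.app T), op_bmk S hw hF, op_bmk T hw (hF.app S)]
  exact bmk_eq hw _ _ (h F hF)

theorem op_eq_op (S T : Cor G μ) [SFinite μ] (hw : IsWt G μ w) [IsFiniteMeasure (wtM μ w)]
    (h : ∀ F : Y → ℂ, IsBF G F → ∀ᵐ y ∂μ, S.app F y = T.app F y) :
    S.op hw = T.op hw := by
  refine ext_bmk hw fun F hF => ?_
  rw [op_bmk T hw hF, op_bmk S hw hF]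
  exact bmk_eq hw _ _ (h F hF)

end Fermat.Agent.LT.Op
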