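import Fermat.Agent.LT.Op.Base
import Fermat.Agent.LT.FA.FK

set_option autoImplicit false
set_option linter.unusedSectionVars false

/-! # Composition of a correspondence and a full kernel -/

namespace Fermat.Agent.LT.Op

open MeasureTheory ProbabilityTheory
open scoped ENNReal NNReal InnerProductSpace
open FA

variable {G Y : Type*} [Group G] [MulAction G Y] [MeasurableSpace Y] [MeasurableConstSMul G Y]
  {μ : Measure Y} [SMulInvariantMeasure G Y μ] [Countable G] {w : Y → ℝ≥0}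
  {b : Base G μ} {k₁ k : Y → Y → ℂ}

/-- left multiplication of a full kernel by a correspondence -/
noncomputable def mulK (b : Base G μ) (k₁ k : Y → Y → ℂ) (x z : Y) : ℂ :=
  ∫ y, k₁ x y * k y z ∂(b.B x)

theorem measurable_mulK (hk₁ : Measurable (Function.uncurry k₁))
    (hk : Measurable (Function.uncurry k)) : Measurable (Function.uncurry (mulK b k₁ k)) := by
  have h1 : Measurable (fun q : (Y × Y) × Y => k₁ q.1.1 q.2 * k q.2 q.1.2) :=
    (hk₁.comp ((measurable_fst.comp measurable_fst).prodMk measurable_snd)).mul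
      (hk.comp (measurable_snd.prodMk (measurable_snd.comp measurable_fst)))
  have h2 := (h1.stronglyMeasurable.integral_kernel_prod_right'
    (κ := b.B.comap (Prod.fst : Y × Y → Y) measurable_fst)).measurable
  exact h2

theorem mulK_smul (hk₁ : ∀ (g : G) x y, k₁ (g • x) (g • y) = k₁ x y)
    (hk : ∀ (g : G) x y, k (g • x) (g • y) = k x y) (g : G) (x z : Y) :
    mulK b k₁ k (g • x) (g • z) = mulK b k₁ k x z := by
  rw [mulK, mulK, b.equiv, (measurableEmbedding_const_smul g).integral_map]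
  simp_rw [hk₁, hk]

theorem lintegral_mulK_le (hk : Measurable (Function.uncurry k)) (x z : Y) :
    ‖mulK b k₁ k x z‖ₑ ≤ ∫⁻ y, ‖k₁ x y‖ₑ * ‖k y z‖ₑ ∂(b.B x) := by
  refine (enorm_integral_le_lintegral_enorm _).trans (le_of_eq ?_)
  simp_rw [enorm_mul]

theorem isFK_mulK [SigmaFinite μ] (hk₁ : Dens b k₁) (hk : IsFK G μ k) :
    IsFK G μ (mulK b k₁ k) where
  meas := measurable_mulK hk₁.meas hk.meas
  inv := mulK_smul hk₁.inv hk.inv
  bdd := by
    obtain ⟨C, h1, h2⟩ := hk.bdd
    obtain ⟨C₁, hC₁⟩ := hk₁.row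
    obtain ⟨C₂, hC₂⟩ := hk₁.col
    have hm₁ : Measurable (fun p : Y × Y => ‖k₁ p.1 p.2‖ₑ) := hk₁.meas.enorm
    have hm : Measurable (fun p : Y × Y => ‖k p.1 p.2‖ₑ) := hk.meas.enorm
    refine ⟨max (C₁ * C) (C₂ * C), fun x => ?_, fun z => ?_⟩
    · have key : ∫⁻ z, ‖mulK b k₁ k x z‖ₑ ∂μ ≤ ((C₁ * C : ℝ≥0) : ℝ≥0∞) := by
        refine (lintegral_mono (lintegral_mulK_le hk.meas x)).trans ?_
        rw [lintegral_lintegral_swap (f := fun z y => ‖k₁ x y‖ₑ * ‖k y z‖ₑ)
          (((hm₁.comp (measurable_const.prodMk measurable_snd)).mul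
            (hm.comp measurable_swap)).aemeasurable)]
        calc ∫⁻ y, ∫⁻ z, ‖k₁ x y‖ₑ * ‖k y z‖ₑ ∂μ ∂(b.B x)
            ≤ ∫⁻ y, ‖k₁ x y‖ₑ * C ∂(b.B x) := by
              refine lintegral_mono fun y => ?_
              have hr : Measurable (fun z => ‖k y z‖ₑ) :=
                hm.comp (measurable_const.prodMk measurable_id)
              rw [lintegral_const_mul _ hr]
              exact mul_le_mul_right (h1 y) _
          _ = (∫⁻ y, ‖k₁ x y‖ₑ ∂(b.B x)) * C := lintegral_mul_const _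
              (hm₁.comp (measurable_const.prodMk measurable_id))
          _ ≤ C₁ * C := mul_le_mul_left (hC₁ x) _
          _ = ((C₁ * C : ℝ≥0) : ℝ≥0∞) := by push_cast; rfl
      exact key.trans (by exact_mod_cast le_max_left _ _)
    · have key : ∫⁻ x, ‖mulK b k₁ k x z‖ₑ ∂μ ≤ ((C₂ * C : ℝ≥0) : ℝ≥0∞) := by
        refine (lintegral_mono fun x => lintegral_mulK_le hk.meas x z).trans ?_
        have h3 := b.lint (fun q => ‖k₁ q.1 q.2‖ₑ * ‖k q.2 z‖ₑ)
          (hm₁.mul (hm.comp (measurable_snd.prodMk measurable_const)))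
        simp only at h3
        rw [h3]
        calc ∫⁻ y, ∫⁻ x, ‖k₁ x y‖ₑ * ‖k y z‖ₑ ∂(b.B y) ∂μ
            ≤ ∫⁻ y, C₂ * ‖k y z‖ₑ ∂μ := by
              refine lintegral_mono fun y => ?_
              have hr : Measurable (fun x => ‖k₁ x y‖ₑ) :=
                hm₁.comp (measurable_id.prodMk measurable_const)
              rw [lintegral_mul_const _ hr]
              exact mul_le_mul_left (hC₂ y) _
          _ = C₂ * ∫⁻ y, ‖k y z‖ₑ ∂μ := lintegral_const_mul _
              (hm.comp (measurable_id.prodMk measurable_const))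
          _ ≤ C₂ * C := mul_le_mul_right (h2 z) _
          _ = ((C₂ * C : ℝ≥0) : ℝ≥0∞) := by push_cast; rfl
      exact key.trans (by exact_mod_cast le_max_right _ _)

/-- **Composition of a correspondence and a full kernel.** -/
theorem op_mul_full [SigmaFinite μ] (hk₁ : Dens b k₁) (hk : IsFK G μ k) (hw : IsWt G μ w)
    [IsFiniteMeasure (wtM μ w)] :
    hk₁.cor.op hw * hk.op hw = (isFK_mulK hk₁ hk).op hw := by
  refine op_mul_op _ _ _ hw fun F hF => Filter.Eventually.of_forall fun x => ?_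
  rw [hk₁.cor_app, (isFK_mulK hk₁ hk).app_eq]
  have hm₁ : Measurable (fun p : Y × Y => k₁ p.1 p.2) := hk₁.meas
  have hm : Measurable (fun p : Y × Y => k p.1 p.2) := hk.meas
  obtain ⟨C, hC⟩ := hk.bdd
  obtain ⟨C₁, hC₁⟩ := hk₁.row
  obtain ⟨CF, hCF⟩ := hF.bdd
  have h1 : ∫ y, k₁ x y * hk.cor.app F y ∂(b.B x) =
      ∫ y, ∫ z, k₁ x y * (k y z * F z) ∂μ ∂(b.B x) := by
    refine integral_congr_ae (Filter.Eventually.of_forall fun y => ?_)
    simp only
    rw [hk.app_eq, ← integral_const_mul]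
  have hmm : Measurable (fun p : Y × Y => k₁ x p.1 * (k p.1 p.2 * F p.2)) :=
    (hm₁.comp (measurable_const.prodMk measurable_fst)).mul (hm.mul (hF.meas.comp measurable_snd))
  have h2 : Integrable (fun p : Y × Y => k₁ x p.1 * (k p.1 p.2 * F p.2)) ((b.B x).prod μ) := by
    refine ⟨hmm.aestronglyMeasurable, ?_⟩
    rw [HasFiniteIntegral, lintegral_prod _ hmm.enorm.aemeasurable]
    have hCF0 : ∀ z, ‖F z‖ₑ ≤ ENNReal.ofReal CF := fun z => by
      rw [← ofReal_norm]
      exact ENNReal.ofReal_le_ofReal (hCF z)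
    calc ∫⁻ y, ∫⁻ z, ‖k₁ x y * (k y z * F z)‖ₑ ∂μ ∂(b.B x)
        ≤ ∫⁻ y, ‖k₁ x y‖ₑ * (C * ENNReal.ofReal CF) ∂(b.B x) := by
          refine lintegral_mono fun y => ?_
          simp_rw [enorm_mul]
          have hr : Measurable (fun z => ‖k y z‖ₑ * ‖F z‖ₑ) :=
            (hm.enorm.comp (measurable_const.prodMk measurable_id)).mul hF.meas.enorm
          rw [lintegral_const_mul _ hr]
          refine mul_le_mul_right ?_ _
          calc ∫⁻ z, ‖k y z‖ₑ * ‖F z‖ₑ ∂μ ≤ ∫⁻ z, ‖k y z‖ₑ * ENNReal.ofReal CF ∂μ :=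
                lintegral_mono fun z => mul_le_mul_right (hCF0 z) _
            _ = (∫⁻ z, ‖k y z‖ₑ ∂μ) * ENNReal.ofReal CF := lintegral_mul_const _
                (hm.enorm.comp (measurable_const.prodMk measurable_id))
            _ ≤ _ := mul_le_mul_left (hC.1 y) _
      _ = (∫⁻ y, ‖k₁ x y‖ₑ ∂(b.B x)) * (C * ENNReal.ofReal CF) := lintegral_mul_const _
          (hm₁.enorm.comp (measurable_const.prodMk measurable_id))
      _ ≤ C₁ * (C * ENNReal.ofReal CF) := mul_le_mul_left (hC₁ x) _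
      _ < ∞ := ENNReal.mul_lt_top ENNReal.coe_lt_top
          (ENNReal.mul_lt_top ENNReal.coe_lt_top ENNReal.ofReal_lt_top)
  rw [h1, integral_integral_swap h2]
  refine integral_congr_ae (Filter.Eventually.of_forall fun z => ?_)
  show _ = (∫ y, k₁ x y * k y z ∂(b.B x)) * F z
  rw [← integral_mul_const]
  refine integral_congr_ae (Filter.Eventually.of_forall fun y => ?_)
  simp only
  ring

end Fermat.Agent.LT.Op
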