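import Fermat.Agent.LT.Op.Full
import Fermat.Agent.LT.Sp.Integ
import Fermat.Agent.LT.Sp.DKer

set_option autoImplicit false
set_option linter.unusedSectionVars false

/-!
# Weights and absolute convergence of the geometric side for product kernels
-/

namespace Fermat.Agent.LT.Sp

open Matrix NumberField MeasureTheory Set
open scoped MatrixGroups ENNReal NNReal

variable {F : Type*} [Field F] {D : Type*} [MulAction (GL (Fin 2) F) D]

variable (F D) in
/-- the trivial twist -/
def Twist.refl : Twist F D where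
  θ := RingEquiv.refl F
  dm := Equiv.refl D
  dm_smul g d := by
    show g • d = GeneralLinearGroup.map ((RingEquiv.refl F : F ≃+* F) : F →+* F) g • d
    congr 1

@[simp] theorem Twist.refl_act (y : HF F × D) : (Twist.refl F D).act y = y :=
  Prod.ext (thetaHF_refl y.1) rfl

theorem Twist.refl_dm (d : D) : (Twist.refl F D).dm d = d := rfl

theorem Twist.refl_θ (a : F) : (Twist.refl F D).θ a = a := rfl

section W

variable [NumberField F] [MeasurableSpace D] [FinPart F D]

variable (F D) in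
/-- **The data of a weight** -/
structure SW where
  R : ℝ
  D₁ : Finset D
  hR : 1 ≤ R
  cover : ∀ y : HF F × D, ∃ γ : PGL(2, F), γ • y ∈ SS F R D₁
  visits : ∀ y : HF F × D, {γ : PGL(2, F) | γ • y ∈ SS F R D₁}.Finite
  w : HF F × D → ℝ≥0
  isWt : FA.IsWt PGL(2, F) (muY F D) w
  le_one : ∀ y, w y ≤ 1
  zero : ∀ y, y ∉ SS F R D₁ → w y = 0
  fin : FA.wtM (muY F D) w univ < ∞

variable (F D) in
theorem nonempty_SW [DiscreteMeasurableSpace D] [Countable D]
    [IsTotallyComplex F] : Nonempty (SW F D) := by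
  obtain ⟨R, D₁, hR, h1, h2, w, h3, h4, h5, h6⟩ := exists_weight (F := F) (D := D)
  exact ⟨⟨R, D₁, hR, h1, h2, w, h3, h4, h5, h6⟩⟩

variable (F D) in
/-- a chosen weight -/
noncomputable def sw [DiscreteMeasurableSpace D] [Countable D]
    [IsTotallyComplex F] : SW F D := (nonempty_SW F D).some

instance SW.instFinite (W : SW F D) : IsFiniteMeasure (FA.wtM (muY F D) W.w) := ⟨W.fin⟩

end W

end Fermat.Agent.LT.Sp

namespace Fermat.Agent.LT.Op

open MeasureTheory NumberField Set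
open scoped ENNReal NNReal MatrixGroups
open FA Sp

variable {F : Type*} [Field F] [NumberField F] {D : Type*} [MulAction (GL (Fin 2) F) D]

/-- kernels on the finite part are bounded -/
theorem exists_dker_bound [FinPart F D] (K : DKer F D) :
    ∃ C : ℝ, 0 ≤ C ∧ ∀ d d', ‖K.κ d d'‖ ≤ C := by
  obtain ⟨C, hC0, hC⟩ := K.exists_row_bound
  refine ⟨C, hC0, fun d d' => ?_⟩
  refine le_trans ?_ (hC d)
  have hfin : (Function.support fun d' => ‖K.κ d d'‖).Finite :=
    (K.finite d).subset fun d' h h0 => h (by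
      show ‖K.κ d d'‖ = 0
      rw [h0, norm_zero])
  exact single_le_finsum d' hfin fun _ => norm_nonneg _

/-- a radius of the archimedean support -/
noncomputable def archRad (κs : InfinitePlace F → IKer) : ℝ := ∑ j, |(κs j).R|

theorem cd_le_of_archK_ne {κs : InfinitePlace F → IKer} {p p' : HF F} (h : archK κs p p' ≠ 0)
    (j : InfinitePlace F) : H3.cd (p j) (p' j) ≤ archRad κs := by
  have h1 : (κs j).k (p j) (p' j) ≠ 0 := (Finset.prod_ne_zero_iff.mp h) j (Finset.mem_univ j)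
  have h2 : H3.cd (p j) (p' j) ≤ (κs j).R := by
    by_contra hcon
    exact h1 ((κs j).supp _ _ (not_le.mp hcon))
  refine (h2.trans (le_abs_self _)).trans ?_
  exact Finset.single_le_sum (f := fun j => |(κs j).R|) (fun _ _ => abs_nonneg _)
    (Finset.mem_univ j)

theorem exists_archK_bd (κs : InfinitePlace F → IKer) :
    ∃ C : ℝ, 0 ≤ C ∧ ∀ p p', |archK κs p p'| ≤ C := by
  choose C hC0 hC using fun j => (κs j).exists_bound
  refine ⟨∏ j, C j, Finset.prod_nonneg fun j _ => hC0 j, fun p p' => ?_⟩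
  rw [archK, Finset.abs_prod]
  exact Finset.prod_le_prod (fun j _ => abs_nonneg _) fun j _ => hC j _ _

theorem exists_pk_bound [FinPart F D] (κs : InfinitePlace F → IKer) (κf : DKer F D) :
    ∃ C : ℝ, ∀ y y' : HF F × D, ‖pk κs κf y y'‖ ≤ C := by
  obtain ⟨C, hC0, hC⟩ := exists_archK_bd κs
  obtain ⟨C', hC0', hC'⟩ := exists_dker_bound κf
  refine ⟨C * C', fun y y' => ?_⟩
  rw [pk_apply, norm_mul, Complex.norm_real, Real.norm_eq_abs]
  exact mul_le_mul (hC _ _) (hC' _ _) (norm_nonneg _) hC0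

theorem pk_ne_zero {κs : InfinitePlace F → IKer} {κf : DKer F D} {y y' : HF F × D}
    (h : pk κs κf y y' ≠ 0) :
    (∀ w, H3.cd (y.1 w) (y'.1 w) ≤ archRad κs) ∧ κf.κ y.2 y'.2 ≠ 0 := by
  rw [pk_apply] at h
  refine ⟨cd_le_of_archK_ne fun h0 => h ?_, right_ne_zero_of_mul h⟩
  rw [h0, Complex.ofReal_zero, zero_mul]

variable [MeasurableSpace D] [DiscreteMeasurableSpace D] [Countable D] [FinPart F D]
  [IsTotallyComplex F]

/-- **Absolute convergence of the geometric side** -/
theorem lintegral_pk_lt_top (W : SW F D) (T : Twist F D) (κs : InfinitePlace F → IKer)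
    (κf : DKer F D)
    (hyp : HypSupp T (fun d d' => κf.κ d d' ≠ 0) ((2 * archRad κs) ^ (2 * rF F))) :
    ∫⁻ y, ∑' γ : PGL(2, F), ‖pk κs κf y (γ • T.act y)‖ₑ ∂(wtM (muY F D) W.w) < ∞ := by
  obtain ⟨C, hC⟩ := exists_pk_bound κs κf
  exact lintegral_tsum_lt_top T W.hR W.D₁ (archRad κs) (fun d d' => κf.κ d d' ≠ 0)
    (fun d _ => κf.finite d) hyp C hC (fun y y' h => pk_ne_zero h) W.isWt.meas W.zero W.fin

theorem lintegral_pk_ne_top (W : SW F D) (T : Twist F D) (κs : InfinitePlace F → IKer)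
    (κf : DKer F D)
    (hyp : HypSupp T (fun d d' => κf.κ d d' ≠ 0) ((2 * archRad κs) ^ (2 * rF F))) :
    ∫⁻ y, ∑' γ : PGL(2, F), ‖pk κs κf y (γ • T.act y)‖ₑ ∂(wtM (muY F D) W.w) ≠ ∞ :=
  (lintegral_pk_lt_top W T κs κf hyp).ne

/-- the untwisted case -/
theorem lintegral_pk_refl_ne_top (W : SW F D) (κs : InfinitePlace F → IKer)
    (κf : DKer F D)
    (hyp : HypSupp (Twist.refl F D) (fun d d' => κf.κ d d' ≠ 0)
      ((2 * archRad κs) ^ (2 * rF F))) :
    ∫⁻ y, ∑' γ : PGL(2, F), ‖pk κs κf y (γ • y)‖ₑ ∂(wtM (muY F D) W.w) ≠ ∞ := by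
  have h := lintegral_pk_ne_top W (Twist.refl F D) κs κf hyp
  simpa only [Twist.refl_act] using h

/-- the sum of the integrals -/
theorem tsum_lintegral_pk_lt_top (W : SW F D) (T : Twist F D) (κs : InfinitePlace F → IKer)
    (κf : DKer F D)
    (hyp : HypSupp T (fun d d' => κf.κ d d' ≠ 0) ((2 * archRad κs) ^ (2 * rF F))) :
    ∑' γ : PGL(2, F), ∫⁻ y, ‖pk κs κf y (γ • T.act y)‖ₑ ∂(wtM (muY F D) W.w) < ∞ := by
  obtain ⟨C, hC⟩ := exists_pk_bound κs κf
  exact tsum_lintegral_lt_top T W.hR W.D₁ (archRad κs) (fun d d' => κf.κ d d' ≠ 0)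
    (fun d _ => κf.finite d) hyp (measurable_pk κs κf) C hC (fun y y' h => pk_ne_zero h)
    W.isWt.meas W.zero W.fin

end Fermat.Agent.LT.Op
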