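import Mathlib

set_option autoImplicit false

/-!
# Product kernels on joint eigenfunctions, almost everywhere
-/

open MeasureTheory Set

namespace Fermat.Agent.LT.Op

section Abs

variable {X : Type*} [MeasurableSpace X] {ν : Measure X} [SigmaFinite ν] {B : ℕ → Set X}

/-- integrability of products -/
theorem fub_int {ι : Type*} [Fintype ι] (hBm : Monotone B)
    {K : ι → X → X → ℂ} {f : (ι → X) → ℂ} (hK : ∀ j, Measurable (Function.uncurry (K j)))
    (hKb : ∀ j, ∃ C, ∀ x y, ‖K j x y‖ ≤ C) (hKs : ∀ j x, ∃ R, ∀ y, K j x y ≠ 0 → y ∈ B R)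
    (hfi : ∀ R, IntegrableOn f (univ.pi fun _ => B R) (Measure.pi fun _ => ν)) (p : ι → X) :
    Integrable (fun r => (∏ j, K j (p j) (r j)) * f r) (Measure.pi fun _ => ν) := by
  choose C hC using hKb
  choose R hR using fun j => hKs j (p j)
  set R' : ℕ := ∑ j, R j with hR'
  have hle : ∀ j, R j ≤ R' := fun j =>
    Finset.single_le_sum (f := R) (fun _ _ => Nat.zero_le _) (Finset.mem_univ j)
  have hm : Measurable fun r : ι → X => ∏ j, K j (p j) (r j) := by
    refine Finset.measurable_prod _ fun j _ => ?_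
    have h1 : Measurable fun y : X => K j (p j) y := (hK j).comp measurable_prodMk_left
    exact h1.comp (measurable_pi_apply j)
  have h1 : IntegrableOn (fun r => (∏ j, K j (p j) (r j)) * f r) (univ.pi fun _ => B R')
      (Measure.pi fun _ => ν) := by
    refine Integrable.bdd_mul (c := ∏ j, C j) (hfi R') hm.aestronglyMeasurable ?_
    refine Filter.Eventually.of_forall fun r => ?_
    rw [norm_prod]
    exact Finset.prod_le_prod (fun _ _ => norm_nonneg _) fun j _ => hC j _ _
  refine (integrableOn_iff_integrable_of_support_subset ?_).mp h1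
  intro r hr
  rw [mem_univ_pi]
  intro j
  refine hBm (hle j) (hR j _ fun h0 => hr ?_)
  show (∏ j, K j (p j) (r j)) * f r = 0
  rw [Finset.prod_eq_zero (Finset.mem_univ j) h0, zero_mul]

theorem ae_fub (hB : ∀ R, MeasurableSet (B R)) (hBm : Monotone B) (hBu : ∀ x, ∃ R, x ∈ B R)
    (n : ℕ) : ∀ (K : Fin n → X → X → ℂ) (s : Fin n → ℂ) (f : (Fin n → X) → ℂ),
    (∀ j, Measurable (Function.uncurry (K j))) → (∀ j, ∃ C, ∀ x y, ‖K j x y‖ ≤ C) →
    (∀ j x, ∃ R, ∀ y, K j x y ≠ 0 → y ∈ B R) → Measurable f →
    (∀ R, IntegrableOn f (univ.pi fun _ => B R) (Measure.pi fun _ => ν)) →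
    (∀ j, ∀ᵐ p ∂(Measure.pi fun _ => ν),
      ∫ q, K j (p j) q * f (Function.update p j q) ∂ν = s j * f p) →
    ∀ᵐ p ∂(Measure.pi fun _ => ν),
      ∫ r, (∏ j, K j (p j) (r j)) * f r ∂(Measure.pi fun _ => ν) = (∏ j, s j) * f p := by
  induction n with
  | zero =>
    intro K s f _ _ _ _ _ _
    refine Filter.Eventually.of_forall fun p => ?_
    simp only [Finset.univ_eq_empty, Finset.prod_empty, one_mul]
    rw [Measure.pi_of_empty, integral_dirac]
    congr 1
    exact Subsingleton.elim _ _
  | succ n ih =>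
    intro K s f hK hKb hKs hf hfi h
    have mp := (measurePreserving_piFinSuccAbove (fun _ : Fin (n + 1) => ν) 0).symm
    have e1 : ∀ z : X × (Fin n → X),
        (MeasurableEquiv.piFinSuccAbove (fun _ : Fin (n + 1) => X) 0).symm z =
          (Fin.cons z.1 z.2 : Fin (n + 1) → X) := fun z => by
      have h0 : (MeasurableEquiv.piFinSuccAbove (fun _ : Fin (n + 1) => X) 0).symm z =
          Fin.insertNth 0 z.1 z.2 := rfl
      rw [h0, Fin.insertNth_zero']
    have tr : ∀ P : (Fin (n + 1) → X) → Prop, (∀ᵐ p ∂(Measure.pi fun _ => ν), P p) ↔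
        ∀ᵐ z ∂(ν.prod (Measure.pi fun _ : Fin n => ν)), P (Fin.cons z.1 z.2) := by
      intro P
      rw [← mp.map_eq,
        (MeasurableEquiv.piFinSuccAbove (fun _ : Fin (n + 1) => X) 0).symm.measurableEmbedding.ae_map_iff]
      simp only [e1]
    have hcons : Measurable fun z : X × (Fin n → X) => (Fin.cons z.1 z.2 : Fin (n + 1) → X) := by
      have := (MeasurableEquiv.piFinSuccAbove (fun _ : Fin (n + 1) => X) 0).symm.measurable
      have e2 : (fun z : X × (Fin n → X) => (Fin.cons z.1 z.2 : Fin (n + 1) → X)) =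
          (MeasurableEquiv.piFinSuccAbove (fun _ : Fin (n + 1) => X) 0).symm :=
        funext fun z => (e1 z).symm
      rw [e2]
      exact this
    set g : X × (Fin n → X) → ℂ := fun z => f (Fin.cons z.1 z.2) with hg
    have hgm : Measurable g := hf.comp hcons
    -- integrability of `g`
    have hgi : ∀ R, IntegrableOn g (B R ×ˢ univ.pi fun _ => B R)
        (ν.prod (Measure.pi fun _ : Fin n => ν)) := by
      intro R
      have h1 := (mp.integrableOn_comp_preimage (f := f) (s := univ.pi fun _ => B R)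
        (MeasurableEquiv.piFinSuccAbove
          (fun _ : Fin (n + 1) => X) 0).symm.measurableEmbedding).mpr (hfi R)
      have e3 : (MeasurableEquiv.piFinSuccAbove (fun _ : Fin (n + 1) => X) 0).symm ⁻¹'
          (univ.pi fun _ => B R) = B R ×ˢ univ.pi fun _ => B R := by
        ext z
        rw [mem_preimage, e1, mem_univ_pi, mem_prod, mem_univ_pi]
        rw [Fin.forall_fin_succ]
        simp only [Fin.cons_zero, Fin.cons_succ]
      rw [e3] at h1
      refine h1.congr_fun (fun z _ => ?_) ((hB R).prod (MeasurableSet.univ_pi fun _ => hB R))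
      show f _ = f _
      rw [e1]
    have hga : ∀ᵐ a ∂ν, ∀ R, IntegrableOn (fun r => g (a, r)) (univ.pi fun _ => B R)
        (Measure.pi fun _ : Fin n => ν) := by
      have h1 : ∀ᵐ a ∂ν, ∀ R, a ∈ B R → IntegrableOn (fun r => g (a, r)) (univ.pi fun _ => B R)
          (Measure.pi fun _ : Fin n => ν) := by
        rw [ae_all_iff]
        intro R
        rw [← ae_restrict_iff' (hB R)]
        have h2 := hgi R
        rw [IntegrableOn, ← Measure.prod_restrict] at h2
        exact h2.prod_right_ae
      filter_upwards [h1] with a ha R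
      obtain ⟨R₁, hR₁⟩ := hBu a
      refine (ha (max R R₁) (hBm (le_max_right _ _) hR₁)).mono_set ?_
      exact pi_mono fun _ _ => hBm (le_max_left _ _)
    -- the equations
    have h0 : ∀ᵐ z ∂(ν.prod (Measure.pi fun _ : Fin n => ν)),
        ∫ q, K 0 z.1 q * g (q, z.2) ∂ν = s 0 * g z := by
      have h1 := (tr _).mp (h 0)
      filter_upwards [h1] with z hz
      have e3 : ∀ q, Function.update (Fin.cons z.1 z.2 : Fin (n + 1) → X) 0 q =
          Fin.cons q z.2 := fun q => Fin.update_cons_zero _ _ _
      simp only [Fin.cons_zero, e3] at hz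
      exact hz
    have hs : ∀ᵐ a ∂ν, ∀ j : Fin n, ∀ᵐ r ∂(Measure.pi fun _ : Fin n => ν),
        ∫ q, K j.succ (r j) q * g (a, Function.update r j q) ∂ν = s j.succ * g (a, r) := by
      rw [ae_all_iff]
      intro j
      have h1 := (tr _).mp (h j.succ)
      have h2 := Measure.ae_ae_of_ae_prod h1
      filter_upwards [h2] with a ha
      filter_upwards [ha] with r hr
      simp only [Fin.cons_succ] at hr
      have e3 : ∀ q, Function.update (Fin.cons a r : Fin (n + 1) → X) j.succ q =
          Fin.cons a (Function.update r j q) := fun q => (Fin.cons_update _ _ _ _).symm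
      simp only [e3] at hr
      exact hr
    -- the induction hypothesis
    have hI : ∀ᵐ a ∂ν, ∀ᵐ r ∂(Measure.pi fun _ : Fin n => ν),
        ∫ t, (∏ j : Fin n, K j.succ (r j) (t j)) * g (a, t) ∂(Measure.pi fun _ : Fin n => ν) =
          (∏ j : Fin n, s j.succ) * g (a, r) := by
      filter_upwards [hga, hs] with a ha1 ha2
      exact ih (fun j => K j.succ) (fun j => s j.succ) (fun r => g (a, r)) (fun j => hK _)
        (fun j => hKb _) (fun j => hKs _) (hgm.comp measurable_prodMk_left) ha1 ha2
    have hI' : ∀ᵐ r ∂(Measure.pi fun _ : Fin n => ν), ∀ᵐ a ∂ν,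
        ∫ t, (∏ j : Fin n, K j.succ (r j) (t j)) * g (a, t) ∂(Measure.pi fun _ : Fin n => ν) =
          (∏ j : Fin n, s j.succ) * g (a, r) := by
      refine (Measure.ae_ae_comm ?_).mp hI
      refine measurableSet_eq_fun ?_ ?_
      · have h1 : StronglyMeasurable (fun y : (X × (Fin n → X)) × (Fin n → X) =>
            (∏ j : Fin n, K j.succ (y.1.2 j) (y.2 j)) * g (y.1.1, y.2)) := by
          refine Measurable.stronglyMeasurable (Measurable.mul ?_ ?_)
          · refine Finset.measurable_prod _ fun j _ => ?_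
            have h2 : Measurable fun y : (X × (Fin n → X)) × (Fin n → X) => (y.1.2 j, y.2 j) :=
              ((measurable_pi_apply j).comp (measurable_snd.comp measurable_fst)).prodMk
                ((measurable_pi_apply j).comp measurable_snd)
            exact (hK j.succ).comp h2
          · exact hgm.comp ((measurable_fst.comp measurable_fst).prodMk measurable_snd)
        exact (h1.integral_prod_right' (ν := Measure.pi fun _ : Fin n => ν)).measurable
      · exact measurable_const.mul hgm
    have hI2 : ∀ᵐ z ∂(ν.prod (Measure.pi fun _ : Fin n => ν)), ∀ᵐ b ∂ν,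
        ∫ t, (∏ j : Fin n, K j.succ (z.2 j) (t j)) * g (b, t) ∂(Measure.pi fun _ : Fin n => ν) =
          (∏ j : Fin n, s j.succ) * g (b, z.2) :=
      Measure.quasiMeasurePreserving_snd.ae hI'
    rw [tr]
    filter_upwards [h0, hI2] with z hz1 hz2
    have e4 : ∀ r : Fin (n + 1) → X, (∏ j, K j ((Fin.cons z.1 z.2 : Fin (n + 1) → X) j) (r j)) =
        K 0 z.1 (r 0) * ∏ j : Fin n, K j.succ (z.2 j) (r j.succ) := by
      intro r
      rw [Fin.prod_univ_succ]
      simp only [Fin.cons_zero, Fin.cons_succ]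
    have hint := fub_int hBm hK hKb hKs hfi (Fin.cons z.1 z.2 : Fin (n + 1) → X)
    have e5 := mp.integral_comp'
      (g := fun r : Fin (n + 1) → X => (∏ j, K j ((Fin.cons z.1 z.2 : Fin (n + 1) → X) j) (r j)) *
        f r)
    have hint2 := (mp.integrable_comp_emb (MeasurableEquiv.piFinSuccAbove
          (fun _ : Fin (n + 1) => X) 0).symm.measurableEmbedding).mpr hint
    rw [← e5]
    have e6 : ∀ y : X × (Fin n → X), (∏ j, K j ((Fin.cons z.1 z.2 : Fin (n + 1) → X) j)
        (((MeasurableEquiv.piFinSuccAbove (fun _ : Fin (n + 1) => X) 0).symm y) j)) *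
        f ((MeasurableEquiv.piFinSuccAbove (fun _ : Fin (n + 1) => X) 0).symm y) =
        K 0 z.1 y.1 * ((∏ j : Fin n, K j.succ (z.2 j) (y.2 j)) * g y) := by
      intro y
      rw [e1, e4, hg]
      simp only [Fin.cons_zero, Fin.cons_succ]
      rw [mul_assoc]
    have e7 : ((fun r : Fin (n + 1) → X =>
        (∏ j, K j ((Fin.cons z.1 z.2 : Fin (n + 1) → X) j) (r j)) * f r) ∘
        (MeasurableEquiv.piFinSuccAbove (fun _ : Fin (n + 1) => X) 0).symm) =
        fun y => K 0 z.1 y.1 * ((∏ j : Fin n, K j.succ (z.2 j) (y.2 j)) * g y) := funext e6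
    rw [e7] at hint2
    simp_rw [e6]
    rw [integral_prod _ hint2]
    have e8 : ∀ᵐ b ∂ν, ∫ t, K 0 z.1 b * ((∏ j : Fin n, K j.succ (z.2 j) (t j)) * g (b, t))
        ∂(Measure.pi fun _ : Fin n => ν) =
        (∏ j : Fin n, s j.succ) * (K 0 z.1 b * g (b, z.2)) := by
      filter_upwards [hz2] with b hb
      rw [integral_const_mul, hb]
      ring
    rw [integral_congr_ae e8, integral_const_mul, hz1, Fin.prod_univ_succ]
    show _ = s 0 * (∏ j : Fin n, s j.succ) * g z
    ring

theorem ae_fub_pi {ι : Type*} [Fintype ι] [DecidableEq ι] (hB : ∀ R, MeasurableSet (B R))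
    (hBm : Monotone B) (hBu : ∀ x, ∃ R, x ∈ B R) {K : ι → X → X → ℂ} {s : ι → ℂ}
    {f : (ι → X) → ℂ} (hK : ∀ j, Measurable (Function.uncurry (K j)))
    (hKb : ∀ j, ∃ C, ∀ x y, ‖K j x y‖ ≤ C) (hKs : ∀ j x, ∃ R, ∀ y, K j x y ≠ 0 → y ∈ B R)
    (hf : Measurable f)
    (hfi : ∀ R, IntegrableOn f (univ.pi fun _ => B R) (Measure.pi fun _ => ν))
    (h : ∀ j, ∀ᵐ p ∂(Measure.pi fun _ => ν),
      ∫ q, K j (p j) q * f (Function.update p j q) ∂ν = s j * f p) :
    ∀ᵐ p ∂(Measure.pi fun _ => ν),
      ∫ r, (∏ j, K j (p j) (r j)) * f r ∂(Measure.pi fun _ => ν) = (∏ j, s j) * f p := by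
  set e := Fintype.equivFin ι with he
  have m := measurePreserving_piCongrLeft (fun _ : ι => ν) e.symm
  have e1 : ∀ r : Fin (Fintype.card ι) → X,
      (MeasurableEquiv.piCongrLeft (fun _ : ι => X) e.symm) r = fun i => r (e i) := by
    intro r
    funext i
    have h1 := MeasurableEquiv.piCongrLeft_apply_apply (β := fun _ : ι => X) e.symm r (e i)
    rwa [Equiv.symm_apply_apply] at h1
  have tr : ∀ P : (ι → X) → Prop, (∀ᵐ p ∂(Measure.pi fun _ => ν), P p) ↔
      ∀ᵐ r ∂(Measure.pi fun _ : Fin (Fintype.card ι) => ν), P (fun i => r (e i)) := by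
    intro P
    rw [← m.map_eq,
      (MeasurableEquiv.piCongrLeft (fun _ : ι => X) e.symm).measurableEmbedding.ae_map_iff]
    simp only [e1]
  have hc : Measurable fun r : Fin (Fintype.card ι) → X => (fun i => r (e i) : ι → X) :=
    measurable_pi_lambda _ fun i => measurable_pi_apply (e i)
  have h2 := ae_fub (ν := ν) hB hBm hBu (Fintype.card ι) (fun j => K (e.symm j))
    (fun j => s (e.symm j)) (fun r => f fun i => r (e i)) (fun j => hK _) (fun j => hKb _)
    (fun j => hKs _) (hf.comp hc) (fun R => by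
      have h3 := (m.integrableOn_comp_preimage (f := f) (s := univ.pi fun _ => B R)
        (MeasurableEquiv.piCongrLeft (fun _ : ι => X) e.symm).measurableEmbedding).mpr (hfi R)
      have e3 : (MeasurableEquiv.piCongrLeft (fun _ : ι => X) e.symm) ⁻¹'
          (univ.pi fun _ => B R) = univ.pi fun _ => B R := by
        ext z
        rw [mem_preimage, e1, mem_univ_pi, mem_univ_pi]
        constructor
        · intro h4 j
          have := h4 (e.symm j)
          rwa [Equiv.apply_symm_apply] at this
        · intro h4 i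
          exact h4 (e i)
      rw [e3] at h3
      refine h3.congr_fun (fun z _ => ?_) (MeasurableSet.univ_pi fun _ => hB R)
      show f _ = f _
      rw [e1]) (fun j => by
      have h3 := (tr _).mp (h (e.symm j))
      filter_upwards [h3] with r hr
      simp only [Equiv.apply_symm_apply] at hr
      rw [← hr]
      congr 1
      funext q
      congr 2
      funext i
      by_cases hi : i = e.symm j
      · subst hi
        simp
      · rw [Function.update_of_ne hi, Function.update_of_ne]
        intro h4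
        apply hi
        rw [← h4, Equiv.symm_apply_apply])
  rw [tr]
  filter_upwards [h2] with r hr
  rw [← m.integral_comp']
  simp only [e1]
  have h5 : (∏ j, s j) = ∏ j, s (e.symm j) := (Equiv.prod_comp e.symm s).symm
  have h6 : ∀ t : Fin (Fintype.card ι) → X, (∏ j, K j (r (e j)) (t (e j))) =
      ∏ j, K (e.symm j) (r j) (t j) := by
    intro t
    rw [← Equiv.prod_comp e.symm]
    simp only [Equiv.apply_symm_apply]
  rw [h5, ← hr]
  simp only [h6]

end Abs

end Fermat.Agent.LT.Op
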