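import Fermat.Agent.LT.Op.Base

set_option autoImplicit false
set_option linter.unusedSectionVars false

/-! # Base kernels given by parametrised maps -/

namespace Fermat.Agent.LT.Op

open MeasureTheory ProbabilityTheory
open scoped ENNReal NNReal
open FA

section Push

variable {Y Q : Type*} [MeasurableSpace Y] [MeasurableSpace Q]

/-- the kernel `x ↦ ν.map (ψ (x, ·))` -/
noncomputable def pushK (ν : Measure Q) (ψ : Y × Q → Y) : Kernel Y Y :=
  (Kernel.id ×ₖ Kernel.const Y ν).map ψ

instance (ν : Measure Q) [SFinite ν] (ψ : Y × Q → Y) : IsSFiniteKernel (pushK ν ψ) := by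
  rw [pushK]; infer_instance

theorem measurable_slice {ψ : Y × Q → Y} (hψ : Measurable ψ) (x : Y) :
    Measurable fun q => ψ (x, q) := hψ.comp measurable_prodMk_left

theorem pushK_apply {ν : Measure Q} [SFinite ν] {ψ : Y × Q → Y} (hψ : Measurable ψ) (x : Y) :
    pushK ν ψ x = ν.map (fun q => ψ (x, q)) := by
  ext s hs
  rw [pushK, Kernel.map_apply' _ hψ _ hs, Kernel.id_prod_apply' _ _ (hψ hs), Kernel.const_apply,
    Measure.map_apply (measurable_slice hψ x) hs]
  rfl

theorem lintegral_pushK {ν : Measure Q} [SFinite ν] {ψ : Y × Q → Y} (hψ : Measurable ψ) (x : Y)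
    {f : Y → ℝ≥0∞} (hf : Measurable f) : ∫⁻ y, f y ∂(pushK ν ψ x) = ∫⁻ q, f (ψ (x, q)) ∂ν := by
  rw [pushK_apply hψ, lintegral_map hf (measurable_slice hψ x)]

theorem integral_pushK {ν : Measure Q} [SFinite ν] {ψ : Y × Q → Y} (hψ : Measurable ψ) (x : Y)
    {f : Y → ℂ} (hf : Measurable f) : ∫ y, f y ∂(pushK ν ψ x) = ∫ q, f (ψ (x, q)) ∂ν := by
  rw [pushK_apply hψ, integral_map (measurable_slice hψ x).aemeasurable
    hf.aestronglyMeasurable]

end Push

section MkBase

variable {G Y Q : Type*} [Group G] [MulAction G Y] [MeasurableSpace Y] [MeasurableConstSMul G Y]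
  [MeasurableSpace Q] {μ : Measure Y}

/-- a base from a parametrised map -/
noncomputable def mkBase (ν : Measure Q) [SFinite ν] (ψ : Y × Q → Y) (hψ : Measurable ψ)
    (hsymm : ∀ h : Y × Y → ℝ≥0∞, Measurable h →
      ∫⁻ x, ∫⁻ q, h (x, ψ (x, q)) ∂ν ∂μ = ∫⁻ y, ∫⁻ q, h (ψ (y, q), y) ∂ν ∂μ)
    (τ : G → Q → Q) (hτ : ∀ g, MeasurePreserving (τ g) ν ν)
    (hτψ : ∀ g x q, ψ (g • x, τ g q) = g • ψ (x, q)) : Base G μ where
  B := pushK ν ψ
  sfin := inferInstance
  lint h hh := by
    have e1 : ∀ x, ∫⁻ y, h (x, y) ∂(pushK ν ψ x) = ∫⁻ q, h (x, ψ (x, q)) ∂ν := fun x =>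
      lintegral_pushK hψ x (hh.comp measurable_prodMk_left)
    have e2 : ∀ y, ∫⁻ x, h (x, y) ∂(pushK ν ψ y) = ∫⁻ q, h (ψ (y, q), y) ∂ν := fun y =>
      lintegral_pushK hψ y (hh.comp measurable_prodMk_right)
    simp_rw [e1, e2]
    exact hsymm h hh
  equiv g x := by
    rw [pushK_apply hψ, pushK_apply hψ]
    have hm : Measurable fun q => ψ (x, q) := hψ.comp measurable_prodMk_left
    have hm' : Measurable fun q => ψ (g • x, q) := hψ.comp measurable_prodMk_left
    rw [Measure.map_map (measurable_const_smul g) hm]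
    conv_lhs => rw [← (hτ g).map_eq]
    rw [Measure.map_map hm' (hτ g).measurable]
    congr 1
    funext q
    exact hτψ g x q

end MkBase

section Pi

variable {ι : Type*} [Fintype ι] [DecidableEq ι] {X : ι → Type*} [∀ i, MeasureSpace (X i)]
  [∀ i, SigmaFinite (volume : Measure (X i))]

/-- exchanging one coordinate is reversible -/
theorem lintegral_update_symm (j : ι) {H : (∀ i, X i) × (∀ i, X i) → ℝ≥0∞} (hH : Measurable H) :
    ∫⁻ p, ∫⁻ q : X j, H (p, Function.update p j q) =
      ∫⁻ p, ∫⁻ q : X j, H (Function.update p j q, p) := by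
  have hu : Measurable fun z : (∀ i, X i) × X j => Function.update z.1 j z.2 := by
    rw [measurable_pi_iff]
    intro i
    by_cases h : i = j
    · subst h
      simp only [Function.update_self]
      exact measurable_snd
    · simp only [Function.update_of_ne h]
      exact (measurable_pi_apply i).comp measurable_fst
  have h1 : Measurable fun p : (∀ i, X i) => ∫⁻ q : X j, H (p, Function.update p j q) :=
    (hH.comp (measurable_fst.prodMk hu)).lintegral_prod_right'
  have h2 : Measurable fun p : (∀ i, X i) => ∫⁻ q : X j, H (Function.update p j q, p) :=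
    (hH.comp (hu.prodMk measurable_fst)).lintegral_prod_right'
  refine lintegral_eq_of_lmarginal_eq (μ := fun i => (volume : Measure (X i))) {j} h1 h2 ?_
  rw [lmarginal_singleton, lmarginal_singleton]
  funext x
  simp only [Function.update_idem]
  rw [lintegral_lintegral_swap]
  have h3 : Measurable fun z : X j × X j => (Function.update x j z.1, Function.update x j z.2) :=
    (hu.comp (measurable_const.prodMk measurable_fst)).prodMk
      (hu.comp (measurable_const.prodMk measurable_snd))
  exact (hH.comp h3).aemeasurable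

end Pi

end Fermat.Agent.LT.Op
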